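import Fermat.Prelude.Def_CuspForm_HeckeGaloisRepDatum
import Fermat.Agent.GR.Asm.Residual
import Fermat.Agent.S41.G.GroupLemma

/-!
# ORD / P6 : a non-Eisenstein prime for a Hecke--Galois datum
-/

set_option autoImplicit false

namespace Fermat.Agent.ORD.P6

open Fermat.Agent.GR.Asm (WeakChebotarev)

local notation "GQ" => (AlgebraicClosure ℚ ≃ₐ[ℚ] AlgebraicClosure ℚ)

/-- if `(s - α)(s - β) = 0` then `(s^j - α^j)(s^j - β^j) = 0`. -/
theorem NonEis_pow {F : Type*} [Field F] {V : Type*} [AddCommGroup V] [Module F V]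
    (s : Module.End F V) (α β : F)
    (h0 : Polynomial.aeval s
      ((Polynomial.X - Polynomial.C α) * (Polynomial.X - Polynomial.C β) : Polynomial F) = 0)
    (j : ℕ) (v : V) :
    (s ^ j) ((s ^ j) v) - (α ^ j + β ^ j) • (s ^ j) v + (α ^ j * β ^ j) • v = 0 := by
  open Polynomial in
  have hdvd : ((X - C α) * (X - C β) : F[X]) ∣ (X ^ j - C (α ^ j)) * (X ^ j - C (β ^ j)) := by
    apply mul_dvd_mul
    · rw [C_pow]; exact sub_dvd_pow_sub_pow _ _ _
    · rw [C_pow]; exact sub_dvd_pow_sub_pow _ _ _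
  open Polynomial in
  have h1 : aeval s ((X ^ j - C (α ^ j)) * (X ^ j - C (β ^ j)) : F[X]) = 0 := by
    obtain ⟨q, hq⟩ := hdvd
    rw [hq, map_mul, h0, zero_mul]
  have h2 := congrArg (fun f : Module.End F V => f v) h1
  open Polynomial in
  simp only [map_mul, map_sub, aeval_X_pow, aeval_C, Module.End.mul_apply, LinearMap.sub_apply,
      Module.algebraMap_end_apply, map_smul, LinearMap.zero_apply] at h2
  rw [← h2]
  simp only [smul_sub, add_smul, mul_smul]
  rw [smul_comm (β ^ j) (α ^ j) v]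
  abel

/-- Cayley--Hamilton for an "Eisenstein" characteristic polynomial. -/
theorem NonEis_ch {F : Type*} [Field F] {V : Type*} [AddCommGroup V] [Module F V]
    [Module.Finite F V] (s : Module.End F V) (a l : F)
    (hs : LinearMap.charpoly s
      = Polynomial.X ^ 2 - Polynomial.C a * Polynomial.X + Polynomial.C l)
    (ha : a ^ 2 = (l + 1) ^ 2) :
    ∃ ε : F, ε ^ 2 = 1 ∧ Polynomial.aeval s
      ((Polynomial.X - Polynomial.C ε) * (Polynomial.X - Polynomial.C (ε * l)) : Polynomial F)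
        = 0 := by
  have hfac : (a - (l + 1)) * (a + (l + 1)) = 0 := by linear_combination ha
  obtain ⟨ε, hε, haε⟩ : ∃ ε : F, ε ^ 2 = 1 ∧ a = ε + ε * l := by
    rcases mul_eq_zero.1 hfac with h | h
    · exact ⟨1, by norm_num, by linear_combination h⟩
    · exact ⟨-1, by norm_num, by linear_combination h⟩
  refine ⟨ε, hε, ?_⟩
  have h := LinearMap.aeval_self_charpoly s
  rw [hs] at h
  rw [← h]
  congr 1
  have e1 : (Polynomial.C ε : Polynomial F) ^ 2 = 1 := by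
    rw [← Polynomial.C_pow, hε, Polynomial.C_1]
  rw [haε]
  simp only [map_add, map_mul]
  linear_combination (Polynomial.C l) * e1

theorem NonEis_two_ne_zero {p : ℕ}
    {𝒪 : Type} [CommRing 𝒪] [IsLocalRing 𝒪]
    {T : Type} [CommRing T] [IsLocalRing T] [Algebra 𝒪 T] [IsLocalHom (algebraMap 𝒪 T)]
    (hp : p.Prime) (hp2 : p ≠ 2) (hp𝒪 : (p : 𝒪) ∈ IsLocalRing.maximalIdeal 𝒪) :
    (2 : AlgebraicClosure (IsLocalRing.ResidueField T)) ≠ 0 := by
  intro h
  have h1 : (2 : IsLocalRing.ResidueField T) = 0 := by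
    apply (algebraMap (IsLocalRing.ResidueField T)
      (AlgebraicClosure (IsLocalRing.ResidueField T))).injective
    rw [map_ofNat, map_zero, h]
  have h2 : (2 : T) ∈ IsLocalRing.maximalIdeal T := by
    rw [← IsLocalRing.residue_eq_zero_iff, map_ofNat, h1]
  have h3 : (p : T) ∈ IsLocalRing.maximalIdeal T := by
    have := map_nonunit (algebraMap 𝒪 T) (p : 𝒪) hp𝒪
    rwa [map_natCast] at this
  obtain ⟨m, hm⟩ := hp.odd_of_ne_two hp2
  have h4 : (1 : T) ∈ IsLocalRing.maximalIdeal T := by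
    have e : (1 : T) = (p : T) - (m : T) * 2 := by
      rw [hm]; push_cast; ring
    rw [e]
    exact Ideal.sub_mem _ h3 (Ideal.mul_mem_left _ _ h2)
  exact (Ideal.ne_top_iff_one _).1 (IsLocalRing.maximalIdeal.isMaximal T).ne_top h4

theorem exists_nonEisenstein (hcheb : WeakChebotarev)
    {p : ℕ} {N : ℕ} [NeZero N] {S : Finset ℕ}
    {𝒪 : Type} [CommRing 𝒪] [IsDomain 𝒪] [IsDiscreteValuationRing 𝒪]
    [IsAdicComplete (IsLocalRing.maximalIdeal 𝒪) 𝒪]
    {θ : CuspForm.heckeAlgebra N 2 (↑S : Set ℕ) →+* IsLocalRing.ResidueField 𝒪}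
    {T : Type} [CommRing T] [IsLocalRing T] [IsNoetherianRing T]
    [IsAdicComplete (IsLocalRing.maximalIdeal T) T] [Algebra 𝒪 T] [IsLocalHom (algebraMap 𝒪 T)]
    [Module.Finite 𝒪 T] [Module.Free 𝒪 T]
    (hp : p.Prime) (hp2 : p ≠ 2) (hp𝒪 : (p : 𝒪) ∈ IsLocalRing.maximalIdeal 𝒪)
    (H : CuspForm.HeckeGaloisRepDatum N (↑S : Set ℕ) 𝒪 θ T) (B : Finset ℕ) :
    ∃ (l : ℕ) (hl : l.Prime) (hlN : ¬ l ∣ N) (hlS : l ∉ (↑S : Set ℕ)), l ∉ B ∧
      IsUnit (H.π (CuspForm.heckeAlgebra.T hl hlN hlS) ^ 2 - ((l : T) + 1) ^ 2) := by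
  classical
  by_contra hcon
  push Not at hcon
  let k := IsLocalRing.ResidueField T
  let F := AlgebraicClosure k
  let ρb : ResidualGaloisRep F := H.ρ.residual.baseChange F
  have hirr : ρb.IsIrreducible := H.residual_absIrr
  obtain ⟨L, hLfin, hL⟩ := ρb.factorsThroughFiniteLevel
  let R : GQ →* (ρb.V ≃ₗ[F] ρb.V) :=
    (LinearMap.GeneralLinearGroup.generalLinearEquiv F ρb.V).toMonoidHom.comp ρb.ρ.toHomUnits
  have hRapp : ∀ (γ : GQ) (v : ρb.V), R γ v = ρb.ρ γ v := fun _ _ => rfl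
  have h2F : (2 : F) ≠ 0 := NonEis_two_ne_zero hp hp2 hp𝒪
  have hS : ∀ g ∈ R.range, ∃ ε d : F, ε ^ 2 = 1 ∧
      ∀ v : ρb.V, g (g v) - (ε + d) • g v + (ε * d) • v = 0 := by
    rintro _ ⟨γ, rfl⟩
    obtain ⟨ℓ, A, σ, j, hℓ, hℓT, hA, hσ, hj⟩ := hcheb L hLfin (B ∪ S ∪ N.primeFactors) γ
    simp only [Finset.mem_union, not_or] at hℓT
    obtain ⟨⟨hB, hSS⟩, hbad⟩ := hℓT
    have hℓN : ¬ ℓ ∣ N := by
      intro hdvd
      exact hbad (Nat.mem_primeFactors.2 ⟨hℓ, hdvd, NeZero.ne N⟩)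
    have hℓS : ℓ ∉ (↑S : Set ℕ) := by simpa using hSS
    have hnu := hcon ℓ hℓ hℓN hℓS hB
    set x : T := H.π (CuspForm.heckeAlgebra.T hℓ hℓN hℓS) with hx
    have hres : IsLocalRing.residue T (x ^ 2 - ((ℓ : T) + 1) ^ 2) = 0 :=
      (IsLocalRing.residue_eq_zero_iff _).2 hnu
    let a : F := algebraMap k F (IsLocalRing.residue T x)
    have ha : a ^ 2 = ((ℓ : F) + 1) ^ 2 := by
      have h1 := congrArg (algebraMap k F) hres
      simp only [map_sub, map_pow, map_add, map_natCast, map_one, map_zero] at h1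
      exact sub_eq_zero.1 h1
    have hcp : LinearMap.charpoly (ρb.ρ σ)
        = Polynomial.X ^ 2 - Polynomial.C a * Polynomial.X + Polynomial.C (ℓ : F) := by
      have h0 := H.charpoly_frob ℓ hℓ hℓN hℓS A hA σ hσ
      have h1 : LinearMap.charpoly (((H.ρ.ρ σ).baseChange k).baseChange F)
          = ((LinearMap.charpoly (H.ρ.ρ σ)).map (algebraMap T k)).map (algebraMap k F) := by
        rw [LinearMap.charpoly_baseChange, LinearMap.charpoly_baseChange]
      have h2 : LinearMap.charpoly (ρb.ρ σ)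
          = ((LinearMap.charpoly (H.ρ.ρ σ)).map (algebraMap T k)).map (algebraMap k F) := h1
      rw [h2, h0]
      simp only [Polynomial.map_add, Polynomial.map_sub, Polynomial.map_mul, Polynomial.map_pow,
        Polynomial.map_X, Polynomial.map_C, map_natCast, Polynomial.map_natCast]
      rfl
    obtain ⟨ε, hε, hCH⟩ := NonEis_ch (ρb.ρ σ) a (ℓ : F) hcp ha
    refine ⟨ε ^ j, (ε * (ℓ : F)) ^ j, by rw [← pow_mul, mul_comm, pow_mul, hε, one_pow], ?_⟩
    intro v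
    have hpow := NonEis_pow (ρb.ρ σ) ε (ε * (ℓ : F)) hCH j v
    have hγ : (ρb.ρ σ) ^ j = ρb.ρ γ := by
      rw [← map_pow]
      have h1 : ρb.ρ (γ⁻¹ * σ ^ j) = 1 := by
        apply hL
        intro y hy
        rw [AlgEquiv.mul_apply, hj y hy]
        exact γ.symm_apply_apply y
      rw [map_mul] at h1
      have h2 : ρb.ρ γ * (ρb.ρ γ⁻¹ * ρb.ρ (σ ^ j)) = ρb.ρ γ := by rw [h1, mul_one]
      rw [← mul_assoc, ← map_mul, mul_inv_cancel, map_one, one_mul] at h2
      exact h2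
    rw [hγ] at hpow
    exact hpow
  obtain ⟨W, hW0, hW1, hWS⟩ := Fermat.Agent.S41.G.group_lemma h2F ρb.finrank_eq R.range hS
  rcases hirr W (fun σ x hx => hWS (R σ) ⟨σ, rfl⟩ x hx) with h | h
  · exact hW0 h
  · exact hW1 h

end Fermat.Agent.ORD.P6
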