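import Fermat.Agent.ORD.P6.FaithAbs2
import Fermat.Agent.ORD.P6.NonEis
import Fermat.Agent.S41.HeckeAlg
import Fermat.Agent.S41.QI.AtkinLehner
import Fermat.Agent.S41.Wire.Ihara
import Fermat.Agent.GR.Adic.Core
import Fermat.Agent.GR.Adic.Saturation

/-!
# ORD / P6 : FAITH, concrete form (FS)

Level `M = M₁ p`, `p ∤ M₁`.  `TT = heckeAlgebra M 2 S'` (anemic), acting on `Lat M` by `iota M S'` and on
`Lat M₁` by `iota M₁ S' ∘ r₁`;  `Π = H.π ∘ r : TT → T`.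
-/

set_option autoImplicit false

open CongruenceSubgroup ModularCurve.Period
open Fermat.Agent.GAL Fermat.Agent.GAL.HK Fermat.Agent.GR.Adic
open Fermat.Agent.GR.Asm (WeakChebotarev)

namespace Fermat.Agent.ORD.P6

open Fermat.Agent.S41 (lres₁ lres₂ oldLat)

/-- `iota M S` does not depend on `S`. -/
theorem faith_iota_incl (M : ℕ) [NeZero M] (S : Set ℕ) (t : CuspForm.heckeAlgebra M 2 S) :
    iota M S t = iota M ∅ (Subalgebra.inclusion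
      (CuspForm.heckeAlgebra_mono (N := M) (k := 2) (Set.empty_subset S)) t) := by
  have h2 := iota_spec M ∅ (Subalgebra.inclusion
      (CuspForm.heckeAlgebra_mono (N := M) (k := 2) (Set.empty_subset S)) t)
  rw [Subalgebra.coe_inclusion] at h2
  exact (iota_spec M S t).unique h2

theorem faith_commute_latT (M : ℕ) [NeZero M] (S : Set ℕ) (t : CuspForm.heckeAlgebra M 2 S)
    {ℓ : ℕ} (hℓ : ℓ.Prime) (hℓM : ¬ ℓ ∣ M) : Commute (iota M S t) (latT M hℓ hℓM) := by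
  rw [faith_iota_incl, ← iota_T M ∅ hℓ hℓM (Set.notMem_empty _), Commute, SemiconjBy, ← map_mul,
    ← map_mul, mul_comm]

theorem faith_commute_latU (M : ℕ) [NeZero M] (S : Set ℕ) (t : CuspForm.heckeAlgebra M 2 S)
    {q : ℕ} (hq : q.Prime) (hqM : q ∣ M) : Commute (iota M S t) (latU M hq hqM) := by
  rw [faith_iota_incl, ← iota_U M ∅ hq hqM (Set.notMem_empty _), Commute, SemiconjBy, ← map_mul,
    ← map_mul, mul_comm]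

/-- induction principle for an anemic Hecke algebra. -/
theorem faith_induction {M : ℕ} [NeZero M] {S' : Set ℕ} (hS' : badSet M ⊆ S')
    (P : CuspForm.heckeAlgebra M 2 S' → Prop)
    (hT : ∀ (ℓ : ℕ) (hℓ : ℓ.Prime) (hℓM : ¬ ℓ ∣ M) (hℓS : ℓ ∉ S'),
      P (CuspForm.heckeAlgebra.T hℓ hℓM hℓS))
    (hint : ∀ n : ℤ, P (n : CuspForm.heckeAlgebra M 2 S'))
    (hadd : ∀ s t, P s → P t → P (s + t)) (hmul : ∀ s t, P s → P t → P (s * t))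
    (t : CuspForm.heckeAlgebra M 2 S') : P t := by
  obtain ⟨t, ht⟩ := t
  induction ht using Algebra.adjoin_induction with
  | mem t ht =>
    rcases ht with ⟨ℓ, hℓ, hℓM, hℓS, rfl⟩ | ⟨q, hqM, hq, hqS, rfl⟩
    · exact hT ℓ hℓ hℓM hℓS
    · exact absurd (hS' ⟨hq, hqM⟩) hqS
  | algebraMap n =>
    have := hint n
    have e : (n : CuspForm.heckeAlgebra M 2 S') = ⟨algebraMap ℤ _ n, Subalgebra.algebraMap_mem _ n⟩ := by
      apply Subtype.ext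
      simp
    rwa [e] at this
  | add s t hs ht h h' => exact hadd _ _ h h'
  | mul s t hs ht h h' => exact hmul _ _ h h'

section abs

variable {TT : Type*} [CommRing TT] {Λ Λ' : Type*} [AddCommGroup Λ] [AddCommGroup Λ']
  (ι : TT →+* Module.End ℤ Λ) (ι' : TT →+* Module.End ℤ Λ') (c : Λ' →ₗ[ℤ] Λ)

/-- `c` intertwines the actions of `t`. -/
def Tw (t : TT) : Prop := ∀ x : Λ', c (ι' t x) = ι t (c x)

theorem Tw.intCast (n : ℤ) : Tw ι ι' c (n : TT) := fun x => by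
  rw [map_intCast, map_intCast, Module.End.intCast_apply, Module.End.intCast_apply, map_zsmul]

variable {ι ι' c}

theorem Tw.add {s t : TT} (hs : Tw ι ι' c s) (ht : Tw ι ι' c t) : Tw ι ι' c (s + t) := fun x => by
  rw [map_add, map_add, LinearMap.add_apply, LinearMap.add_apply, map_add, hs x, ht x]

theorem Tw.mul {s t : TT} (hs : Tw ι ι' c s) (ht : Tw ι ι' c t) : Tw ι ι' c (s * t) := fun x => by
  rw [map_mul, map_mul, Module.End.mul_apply, Module.End.mul_apply, hs, ht]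

/-- `x² - (l+1)²`. -/
def faithEta {TT : Type*} [CommRing TT] (x : TT) (l : ℕ) : TT := x ^ 2 - ((l : TT) + 1) ^ 2

theorem faithEta_map {TT T : Type*} [CommRing TT] [Ring T] (f : TT →+* T) (x : TT) (l : ℕ) :
    f (faithEta x l) = f x ^ 2 - ((l : T) + 1) ^ 2 := by
  simp [faithEta]

theorem faithEta_apply {TT : Type*} [CommRing TT] {Λ' : Type*} [AddCommGroup Λ']
    (ι' : TT →+* Module.End ℤ Λ') (x : TT) (l : ℕ) (y : Λ') :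
    ι' (faithEta x l) y = ι' x (ι' x y) - (((l : ℤ) + 1) ^ 2) • y := by
  rw [faithEta_map, LinearMap.sub_apply, pow_two, Module.End.mul_apply]
  congr 1
  have e : ((l : Module.End ℤ Λ') + 1) ^ 2 = ((((l : ℤ) + 1) ^ 2 : ℤ) : Module.End ℤ Λ') := by
    push_cast; rfl
  rw [e, Module.End.intCast_apply]

end abs

/-- weak Ihara in `DivBy` form. -/
theorem faith_ihara {M₁ p l : ℕ} [NeZero M₁] [NeZero p] (hp : p.Prime) (hpM₁ : ¬ p ∣ M₁)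
    (hl : l.Prime) (hl2 : l ≠ 2) (hlM₁ : ¬ l ∣ M₁) (hlp : l ≠ p) (n : ℕ) (y z : Lat M₁)
    (h : DivBy n (lres₁ M₁ p y + lres₂ M₁ p z)) :
    DivBy n (latT M₁ hl hlM₁ (latT M₁ hl hlM₁ y) - (((l : ℤ) + 1) ^ 2) • y) := by
  obtain ⟨w, hw⟩ := h
  have h1 : lres₁ M₁ p y + lres₂ M₁ p z = (n : ℤ) • w := by rw [hw, natCast_zsmul]
  obtain ⟨⟨v, hv⟩, -⟩ := S41.hEZ_ihara hp hpM₁ hl hl2 hlM₁ hlp n y z ⟨w, h1⟩
  exact ⟨v, by rw [hv, natCast_zsmul]⟩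

/-- **(ORD-lat)** : the only geometric input of FAITH (`= ` weak Fontaine at level `M₁`). -/
def OrdLat {TT : Type*} [CommRing TT] (p M₁ : ℕ) (hp : p.Prime) (hpM₁ : ¬ p ∣ M₁)
    (ι' : TT →+* Module.End ℤ (Lat M₁)) (𝔪 : Ideal TT) : Prop :=
  ∀ x : Lat M₁, (∀ t ∈ 𝔪, DivBy p (ι' t x)) → DivBy p (latT M₁ hp hpM₁ x) → DivBy p x

section main

variable {p : ℕ} {N : ℕ} [NeZero N] {S : Finset ℕ}
    {𝒪 : Type} [CommRing 𝒪] [IsDomain 𝒪] [IsDiscreteValuationRing 𝒪]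
    [IsAdicComplete (IsLocalRing.maximalIdeal 𝒪) 𝒪]
    {θ : CuspForm.heckeAlgebra N 2 (↑S : Set ℕ) →+* IsLocalRing.ResidueField 𝒪}
    {T : Type} [CommRing T] [IsLocalRing T] [IsNoetherianRing T]
    [IsAdicComplete (IsLocalRing.maximalIdeal T) T] [Algebra 𝒪 T] [IsLocalHom (algebraMap 𝒪 T)]
    [Module.Finite 𝒪 T] [Module.Free 𝒪 T]

/-- **(FS)** -/
theorem faith (hcheb : WeakChebotarev) [NeZero p]
    (hp : p.Prime) (hp2 : p ≠ 2) (hp𝒪 : (p : 𝒪) ∈ IsLocalRing.maximalIdeal 𝒪)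
    (H : CuspForm.HeckeGaloisRepDatum N (↑S : Set ℕ) 𝒪 θ T)
    {M₁ : ℕ} [NeZero M₁] (hpM₁ : ¬ p ∣ M₁)
    (S' : Set ℕ) (hbad : badSet (M₁ * p) ⊆ S') (hfin : S'.Finite)
    (r : CuspForm.heckeAlgebra (M₁ * p) 2 S' →+* CuspForm.heckeAlgebra N 2 (↑S : Set ℕ))
    (hr : ∀ (ℓ : ℕ) (hℓ : ℓ.Prime) (hℓM : ¬ ℓ ∣ M₁ * p) (hℓS' : ℓ ∉ S') (hℓN : ¬ ℓ ∣ N)
      (hℓS : ℓ ∉ (↑S : Set ℕ)),
      r (CuspForm.heckeAlgebra.T hℓ hℓM hℓS') = CuspForm.heckeAlgebra.T hℓ hℓN hℓS)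
    (r₁ : CuspForm.heckeAlgebra (M₁ * p) 2 S' →+* CuspForm.heckeAlgebra M₁ 2 S')
    (hr₁ : ∀ (ℓ : ℕ) (hℓ : ℓ.Prime) (hℓM : ¬ ℓ ∣ M₁ * p) (hℓS' : ℓ ∉ S') (hℓM₁ : ¬ ℓ ∣ M₁),
      r₁ (CuspForm.heckeAlgebra.T hℓ hℓM hℓS') = CuspForm.heckeAlgebra.T hℓ hℓM₁ hℓS')
    (hord : OrdLat p M₁ hp hpM₁ ((iota M₁ S').comp r₁)
      ((IsLocalRing.maximalIdeal T).comap (H.π.comp r))) (n : ℕ) :
    ∃ k : ℕ, ∀ (t s : CuspForm.heckeAlgebra (M₁ * p) 2 S') (j : ℕ),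
      IsUnit (H.π (r s)) →
      (∀ x : Lat (M₁ * p), DivBy (p ^ k) (iota (M₁ * p) S' t
        (((iota (M₁ * p) S' s * latU (M₁ * p) hp (Dvd.intro_left M₁ rfl)) ^ j) x))) →
      H.π (r t) ∈ Ideal.span {(p : T) ^ n} := by
  classical
  obtain ⟨ι, hι⟩ : ∃ ι : CuspForm.heckeAlgebra (M₁ * p) 2 S' →+* Module.End ℤ (Lat (M₁ * p)),
    ι = iota (M₁ * p) S' := ⟨_, rfl⟩
  obtain ⟨ι', hι'⟩ : ∃ ι' : CuspForm.heckeAlgebra (M₁ * p) 2 S' →+* Module.End ℤ (Lat M₁),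
    ι' = (iota M₁ S').comp r₁ := ⟨_, rfl⟩
  obtain ⟨Pi, hPi⟩ : ∃ Pi : CuspForm.heckeAlgebra (M₁ * p) 2 S' →+* T, Pi = H.π.comp r := ⟨_, rfl⟩
  have hPi' : ∀ t, H.π (r t) = Pi t := fun t => by rw [hPi]; rfl
  simp only [hPi']
  rw [← hι', ← hPi] at hord
  rw [← hι]
  have hpM : p ∣ M₁ * p := Dvd.intro_left M₁ rfl
  obtain ⟨U, hUdef⟩ : ∃ U, U = latU (M₁ * p) hp hpM := ⟨_, rfl⟩
  obtain ⟨Tp, hTpdef⟩ : ∃ Tp, Tp = latT M₁ hp hpM₁ := ⟨_, rfl⟩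
  rw [← hUdef]
  have hdvd : ∀ {ℓ : ℕ}, ¬ ℓ ∣ M₁ * p → ¬ ℓ ∣ M₁ := fun h h' => h (h'.mul_right p)
  -- the generators
  have hιT : ∀ (ℓ : ℕ) (hℓ : ℓ.Prime) (hℓM : ¬ ℓ ∣ M₁ * p) (hℓS : ℓ ∉ S'),
      ι (CuspForm.heckeAlgebra.T hℓ hℓM hℓS) = latT (M₁ * p) hℓ hℓM := fun ℓ hℓ hℓM hℓS => by
    rw [hι]; exact iota_T (M₁ * p) S' hℓ hℓM hℓS
  have hι'T : ∀ (ℓ : ℕ) (hℓ : ℓ.Prime) (hℓM : ¬ ℓ ∣ M₁ * p) (hℓS : ℓ ∉ S'),
      ι' (CuspForm.heckeAlgebra.T hℓ hℓM hℓS) = latT M₁ hℓ (hdvd hℓM) := fun ℓ hℓ hℓM hℓS => by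
    rw [hι', RingHom.comp_apply, hr₁ ℓ hℓ hℓM hℓS (hdvd hℓM)]
    exact iota_T M₁ S' hℓ (hdvd hℓM) hℓS
  -- intertwining
  have hab : ∀ (c : Lat M₁ →ₗ[ℤ] Lat (M₁ * p)),
      (∀ (ℓ : ℕ) (hℓ : ℓ.Prime) (hℓM : ¬ ℓ ∣ M₁ * p) (x : Lat M₁),
        latT (M₁ * p) hℓ hℓM (c x) = c (latT M₁ hℓ (hdvd hℓM) x)) →
      ∀ (t : CuspForm.heckeAlgebra (M₁ * p) 2 S') (x : Lat M₁), c (ι' t x) = ι t (c x) := by
    intro c hc t
    refine faith_induction hbad (Tw ι ι' c) ?_ (Tw.intCast ι ι' c) (fun _ _ => Tw.add)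
      (fun _ _ => Tw.mul) t
    intro ℓ hℓ hℓM hℓS x
    rw [hιT, hι'T, hc]
  have ha := hab (lres₁ M₁ p) fun ℓ hℓ hℓM x => S41.latT_lres₁ M₁ p hℓ (hdvd hℓM) hℓM x
  have hb := hab (lres₂ M₁ p) fun ℓ hℓ hℓM x => S41.latT_lres₂ M₁ p hℓ (hdvd hℓM) hℓM x
  have hU : ∀ t, Commute (ι t) U := fun t => by
    rw [hι, hUdef]; exact faith_commute_latU (M₁ * p) S' t hp hpM
  have hTp : ∀ t, Commute (ι' t) Tp := fun t => by
    rw [hι', hTpdef]; exact faith_commute_latT M₁ S' (r₁ t) hp hpM₁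
  have hUa : ∀ x, U (lres₁ M₁ p x) = lres₁ M₁ p (Tp x) - lres₂ M₁ p x := fun x => by
    rw [hUdef, hTpdef]; exact S41.h5_latU_q_lres₁ M₁ p hp hpM₁ hpM x
  have hUb : ∀ x, U (lres₂ M₁ p x) = p • lres₁ M₁ p x := fun x => by
    rw [hUdef]; exact S41.h5_latU_q_lres₂ M₁ p hp hpM x
  have hnew : ∀ x : Lat (M₁ * p), ∃ y z : Lat M₁, U (U x) - x = lres₁ M₁ p y + lres₂ M₁ p z := by
    intro x
    have h1 := S41.latU_sq_sub_mem_oldLat M₁ p hp hpM₁ hpM x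
    rw [oldLat, Submodule.mem_sup] at h1
    obtain ⟨_, ⟨y, rfl⟩, _, ⟨z, rfl⟩, h2⟩ := h1
    exact ⟨y, z, by rw [hUdef]; exact h2.symm⟩
  -- a non-Eisenstein prime
  obtain ⟨l, hl, hlN, hlS, hlB, hlu⟩ := exists_nonEisenstein hcheb hp hp2 hp𝒪 H
    (hfin.toFinset ∪ {2, p} ∪ (M₁ * p).primeFactors)
  have hM0 : M₁ * p ≠ 0 := NeZero.ne _
  simp only [Finset.mem_union, Set.Finite.mem_toFinset, Finset.mem_insert, Finset.mem_singleton,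
    Nat.mem_primeFactors, not_or, not_and] at hlB
  obtain ⟨⟨hlS', hl2, hlp⟩, hlM'⟩ := hlB
  have hlM : ¬ l ∣ M₁ * p := fun h => hlM' hl h hM0
  obtain ⟨Tl, hTl⟩ : ∃ Tl : CuspForm.heckeAlgebra (M₁ * p) 2 S',
    Tl = CuspForm.heckeAlgebra.T hl hlM hlS' := ⟨_, rfl⟩
  have hη : IsUnit (Pi (faithEta Tl l)) := by
    have e : Pi Tl = H.π (CuspForm.heckeAlgebra.T hl hlN hlS) := by
      rw [hPi, hTl, RingHom.comp_apply, hr l hl hlM hlS' hlN hlS]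
    rw [faithEta_map, e]
    exact hlu
  have hIh : ∀ (n : ℕ) (y z : Lat M₁), DivBy n (lres₁ M₁ p y + lres₂ M₁ p z) →
      DivBy n (ι' (faithEta Tl l) y) := by
    intro n y z h
    rw [faithEta_apply, hTl, hι'T]
    exact faith_ihara hp hpM₁ hl hl2 (hdvd hlM) hlp n y z h
  exact faith_abs2 p hp ι (by rw [hι]; exact iota_injective _ _) ι' Pi (lres₁ M₁ p) (lres₂ M₁ p)
    ha hb U hU Tp hTp hUa hUb hnew _ hη hIh (by rw [hTpdef]; exact hord) n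

end main

end Fermat.Agent.ORD.P6
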