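import Fermat.Agent.ORD.P6.OrdSplit

/-!
# ORD / P6 : the projector of `exists_proj` without finite generation of `𝔪` (same proof)
-/

set_option autoImplicit false

namespace Fermat.Agent.ORD.P6

variable {TT : Type*} [CommRing TT] {Λ : Type*} [AddCommGroup Λ] [Module.Finite ℤ Λ]

/-- an element `s ∈ 1 + 𝔪` acting on `Λ / p` as the projector onto the `𝔪`-primary part. -/
theorem exists_proj' (p : ℕ) (hp : p ≠ 0) (ι : TT →+* Module.End ℤ Λ) (𝔪 : Ideal TT) :
    ∃ (s : TT) (n : ℕ), s - 1 ∈ 𝔪 ∧ Cong p (ι (s * s)) (ι s) ∧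
      ∀ t ∈ 𝔪 ^ n, Cong p (ι (t * s)) 0 := by
  have hfin := OrdSplit_finite_ring p hp ι
  set I := OrdSplit_I p ι with hI
  obtain ⟨e, N, heM, hee, hN⟩ := OrdSplit_exists_idem (𝔪.map (Ideal.Quotient.mk I))
  obtain ⟨e₀, he₀, rfl⟩ := (Ideal.mem_map_iff_of_surjective _ Ideal.Quotient.mk_surjective).1 heM
  refine ⟨1 - e₀, N, ?_, ?_, fun t ht => ?_⟩
  · have : (1 - e₀) - 1 = -e₀ := by ring
    rw [this]
    exact 𝔪.neg_mem he₀
  · apply OrdSplit_cong_of_sub_mem
    rw [← hI, ← Ideal.Quotient.eq_zero_iff_mem]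
    simp only [map_sub, map_mul, map_one]
    linear_combination hee
  · rw [← OrdSplit_mem_I, ← hI, ← Ideal.Quotient.eq_zero_iff_mem]
    have h1 : Ideal.Quotient.mk I t ∈ Ideal.span {Ideal.Quotient.mk I e₀} := by
      rw [← hN, ← Ideal.map_pow]
      exact Ideal.mem_map_of_mem _ ht
    obtain ⟨a, ha⟩ := Ideal.mem_span_singleton'.1 h1
    simp only [map_sub, map_mul, map_one]
    rw [← ha]
    linear_combination (-a) * hee

end Fermat.Agent.ORD.P6
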