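import Fermat.Agent.ORD.P7.HeckeMap
import Fermat.Agent.GR.Asm.Residual
import Fermat.Prelude.Def_CuspForm_HeckeGaloisRepDatum
import Fermat.Agent.ORD.P6.Faith
import Fermat.Agent.ORD.P6.Proj
import Fermat.Agent.GR.Adic.LevelRes

/-!
# ORD / P6 / Final : the OFFICIAL CONTRACT of P6 (lattice half of FAITH), in the form consumed by `ORD/Chain.lean`.

`HH = ℤ[X_ℓ]`, `opL M B : HH →+* End (Lat M)` (`= iota M B ∘ eH M B`, `eH` surjective: `P7.eH_surjective`), `ψ : HH →+* T` is `H.π ∘ (level restriction) ∘ eH`,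
characterised by its values on the variables (`P7.HH_hom_ext`).
-/

set_option autoImplicit false

open Fermat.Agent.GAL Fermat.Agent.GAL.HK
open Fermat.Agent.GR.Asm (WeakChebotarev)
open Fermat.Agent.ORD.P0 Fermat.Agent.ORD.P7 IsLocalRing

namespace Fermat.Agent.ORD.P6

theorem faithLatH (hcheb : WeakChebotarev)
    {p : ℕ} {N : ℕ} [NeZero N] {S : Finset ℕ}
    {𝒪 : Type} [CommRing 𝒪] [IsDomain 𝒪] [IsDiscreteValuationRing 𝒪]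
    [IsAdicComplete (IsLocalRing.maximalIdeal 𝒪) 𝒪]
    {θ : CuspForm.heckeAlgebra N 2 (↑S : Set ℕ) →+* IsLocalRing.ResidueField 𝒪}
    {T : Type} [CommRing T] [IsLocalRing T] [IsNoetherianRing T]
    [IsAdicComplete (IsLocalRing.maximalIdeal T) T] [Algebra 𝒪 T] [IsLocalHom (algebraMap 𝒪 T)]
    [Module.Finite 𝒪 T] [Module.Free 𝒪 T]
    [Finite (IsLocalRing.ResidueField 𝒪)] [CharZero 𝒪]
    (hp : p.Prime) (hp2 : p ≠ 2) (hp𝒪 : (p : 𝒪) ∈ IsLocalRing.maximalIdeal 𝒪)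
    (hNS : ∀ q : ℕ, q.Prime → q ∣ N → q ∈ S)
    (H : CuspForm.HeckeGaloisRepDatum N (↑S : Set ℕ) 𝒪 θ T)
    (M₁ : ℕ) [NeZero M₁] [NeZero (M₁ * p)] (hM₁ : AdmLevel M₁) (hpM₁ : ¬ p ∣ M₁)
    (hNM : N ∣ M₁ * p)
    (bad : Finset ℕ) (hSbad : S ⊆ bad) (hbad : ∀ q : ℕ, q.Prime → q ∣ M₁ * p → q ∈ bad)
    (ψ : HH →+* T)
    (hψ : ∀ (ℓ : ℕ) (hℓ : ℓ.Prime) (hℓN : ¬ ℓ ∣ N) (hℓS : ℓ ∉ (↑S : Set ℕ)), ℓ ∉ bad →
      ψ (MvPolynomial.X ℓ) = H.π (CuspForm.heckeAlgebra.T hℓ hℓN hℓS))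
    (hψ0 : ∀ ℓ : ℕ, ¬ (ℓ.Prime ∧ ℓ ∉ bad) → ψ (MvPolynomial.X ℓ) = 0)
    (hord : OrdLatH M₁ hp hpM₁ (↑bad : Set ℕ) ψ) :
    FaithLatH (M₁ * p) hp (Dvd.intro_left M₁ rfl) (↑bad : Set ℕ) ψ := by
  classical
  have : NeZero p := ⟨hp.ne_zero⟩
  have hpT : (p : T) ∈ maximalIdeal T := by
    rw [mem_maximalIdeal, mem_nonunits_iff]
    intro hu
    have h1 : IsUnit (algebraMap 𝒪 T (p : 𝒪)) := by rwa [map_natCast]
    exact (mem_maximalIdeal _).1 hp𝒪 (isUnit_of_map_unit (algebraMap 𝒪 T) _ h1)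
  have hbadSet : Fermat.Agent.GR.Adic.badSet (M₁ * p) ⊆ (↑bad : Set ℕ) :=
    fun q hq => Finset.mem_coe.2 (hbad q hq.1 hq.2)
  have hgoodM : ∀ ℓ : ℕ, ℓ.Prime → ℓ ∉ bad → ¬ ℓ ∣ M₁ * p := fun ℓ hℓ hb hd => hb (hbad ℓ hℓ hd)
  obtain ⟨r, hr⟩ := Fermat.Agent.GR.Adic.levelRes N (M₁ * p) hNM (↑S : Set ℕ) (↑bad : Set ℕ)
    (Finset.coe_subset.2 hSbad) hbadSet
  obtain ⟨r₁, hr₁⟩ := Fermat.Agent.GR.Adic.levelRes M₁ (M₁ * p) (Dvd.intro p rfl)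
    (↑bad : Set ℕ) (↑bad : Set ℕ) (le_refl _) hbadSet
  have hr₁' : ∀ (ℓ : ℕ) (hℓ : ℓ.Prime) (hℓM : ¬ ℓ ∣ M₁ * p) (hℓS' : ℓ ∉ (↑bad : Set ℕ))
      (hℓM₁ : ¬ ℓ ∣ M₁),
      r₁ (CuspForm.heckeAlgebra.T hℓ hℓM hℓS') = CuspForm.heckeAlgebra.T hℓ hℓM₁ hℓS' :=
    fun ℓ hℓ hℓM hℓS' hℓM₁ => hr₁ ℓ hℓ hℓM hℓS' hℓM₁ hℓS'
  -- `ψ = H.π ∘ r ∘ eH`
  have hψe : ψ = (H.π.comp r).comp (eH (M₁ * p) (↑bad : Set ℕ)) := by
    apply HH_hom_ext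
    intro ℓ
    by_cases h : ℓ.Prime ∧ ℓ ∉ bad
    · have hb' : ℓ ∉ (↑bad : Set ℕ) := fun h' => h.2 (Finset.mem_coe.1 h')
      have hℓM := hgoodM ℓ h.1 h.2
      have hℓN : ¬ ℓ ∣ N := fun h' => hℓM (h'.trans hNM)
      have hℓS : ℓ ∉ (↑S : Set ℕ) := fun h' => h.2 (hSbad (Finset.mem_coe.1 h'))
      rw [hψ ℓ h.1 hℓN hℓS h.2, RingHom.comp_apply, eH_X_of_good _ _ h.1 hℓM hb',
        RingHom.comp_apply, hr ℓ h.1 hℓM hb' hℓN hℓS]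
    · rw [hψ0 ℓ h, RingHom.comp_apply, eH_X, tauH, dif_neg, map_zero]
      exact fun h' => h ⟨h'.1, fun hb => h'.2.2 (Finset.mem_coe.2 hb)⟩
  have hψe' : ∀ D, ψ D = H.π (r (eH (M₁ * p) (↑bad : Set ℕ) D)) := fun D => by
    conv_lhs => rw [hψe]
    rfl
  -- `opL M₁ = iota M₁ ∘ r₁ ∘ eH`
  have hop₁ : opL M₁ (↑bad : Set ℕ)
      = ((iota M₁ (↑bad : Set ℕ)).comp r₁).comp (eH (M₁ * p) (↑bad : Set ℕ)) := by
    apply HH_hom_ext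
    intro ℓ
    by_cases h : ℓ.Prime ∧ ℓ ∉ bad
    · have hb' : ℓ ∉ (↑bad : Set ℕ) := fun h' => h.2 (Finset.mem_coe.1 h')
      have hℓM := hgoodM ℓ h.1 h.2
      have hℓM₁ : ¬ ℓ ∣ M₁ := fun h' => hℓM (h'.mul_right p)
      rw [opL_X_of_good _ _ h.1 hℓM₁ hb', RingHom.comp_apply, eH_X_of_good _ _ h.1 hℓM hb',
        RingHom.comp_apply, hr₁' ℓ h.1 hℓM hb' hℓM₁, iota_T]
    · rw [opL_X_of_junk, RingHom.comp_apply, eH_X, tauH, dif_neg, map_zero]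
      · exact fun h' => h ⟨h'.1, fun hb => h'.2.2 (Finset.mem_coe.2 hb)⟩
      · exact fun h' => h ⟨h'.1, fun hb => h'.2.2 (Finset.mem_coe.2 hb)⟩
  -- (ORD-lat)
  have hord' : OrdLat p M₁ hp hpM₁ ((iota M₁ (↑bad : Set ℕ)).comp r₁)
      ((maximalIdeal T).comap (H.π.comp r)) := by
    intro x hx hTx
    refine hord x (fun D hD => ?_) hTx
    rw [hop₁]
    refine hx _ ?_
    rw [Ideal.mem_comap, RingHom.comp_apply, ← hψe']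
    exact (mem_mOf ψ D).1 hD
  -- the projector
  obtain ⟨s, n₀, hs1, -, hs⟩ := exists_proj' p hp.ne_zero (opL (M₁ * p) (↑bad : Set ℕ)) (mOf ψ)
  have hsu : IsUnit (ψ s) := by
    by_contra hcon
    have h1 : ψ s ∈ maximalIdeal T := (mem_maximalIdeal _).2 hcon
    have h2 : ψ (s - 1) ∈ maximalIdeal T := (mem_mOf ψ _).1 hs1
    rw [map_sub, map_one] at h2
    have h3 := Ideal.sub_mem _ h1 h2
    rw [sub_sub_cancel] at h3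
    exact (Ideal.ne_top_iff_one _).1 (maximalIdeal.isMaximal T).ne_top h3
  refine ⟨s, fun D hD => ⟨n₀, cong_zero_iff.1 (hs _ (Ideal.pow_mem_pow hD n₀))⟩, fun n => ?_⟩
  obtain ⟨k, hk⟩ := faith hcheb hp hp2 hp𝒪 H hpM₁ (↑bad : Set ℕ) hbadSet (Finset.finite_toSet bad)
    r hr r₁ hr₁' hord' n
  refine ⟨k, fun D j h => ?_⟩
  have h1 := hk (eH (M₁ * p) (↑bad : Set ℕ) D) (eH (M₁ * p) (↑bad : Set ℕ) s) j
    (by rw [← hψe']; exact hsu) h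
  rw [hψe']
  refine (Ideal.span_le.2 ?_) h1
  rintro _ rfl
  exact Ideal.pow_mem_pow hpT n

end Fermat.Agent.ORD.P6
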