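import Mathlib

/-!
# ORD / P6 (lattice half of FAITH) : definitions (no sorry)

* `DivBy n x` : `x ∈ n Λ`
* `Cong n A B` : the endomorphisms `A`, `B` of `Λ` agree modulo `n Λ`
-/

set_option autoImplicit false

namespace Fermat.Agent.ORD.P6

variable {Λ Λ' : Type*} [AddCommGroup Λ] [AddCommGroup Λ']

/-- `x ∈ n Λ`. -/
def DivBy (n : ℕ) (x : Λ) : Prop := ∃ w : Λ, x = n • w

theorem DivBy.zero (n : ℕ) : DivBy n (0 : Λ) := ⟨0, (smul_zero n).symm⟩

theorem divBy_smul (n : ℕ) (x : Λ) : DivBy n (n • x) := ⟨x, rfl⟩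

theorem divBy_one (x : Λ) : DivBy 1 x := ⟨x, (one_smul ℕ x).symm⟩

theorem DivBy.add {n : ℕ} {x y : Λ} (hx : DivBy n x) (hy : DivBy n y) : DivBy n (x + y) := by
  obtain ⟨a, rfl⟩ := hx
  obtain ⟨b, rfl⟩ := hy
  exact ⟨a + b, (smul_add n a b).symm⟩

theorem DivBy.neg {n : ℕ} {x : Λ} (hx : DivBy n x) : DivBy n (-x) := by
  obtain ⟨a, rfl⟩ := hx
  exact ⟨-a, (smul_neg n a).symm⟩

theorem DivBy.sub {n : ℕ} {x y : Λ} (hx : DivBy n x) (hy : DivBy n y) : DivBy n (x - y) := by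
  rw [sub_eq_add_neg]; exact hx.add hy.neg

theorem DivBy.map {n : ℕ} {x : Λ} (hx : DivBy n x) (f : Λ →+ Λ') : DivBy n (f x) := by
  obtain ⟨a, rfl⟩ := hx
  exact ⟨f a, map_nsmul f n a⟩

theorem DivBy.mapL {n : ℕ} {x : Λ} (hx : DivBy n x) (f : Λ →ₗ[ℤ] Λ') : DivBy n (f x) :=
  hx.map f.toAddMonoidHom

theorem DivBy.nsmul {n : ℕ} {x : Λ} (hx : DivBy n x) (c : ℕ) : DivBy n (c • x) := by
  obtain ⟨a, rfl⟩ := hx
  exact ⟨c • a, smul_comm c n a⟩

theorem DivBy.zsmul {n : ℕ} {x : Λ} (hx : DivBy n x) (c : ℤ) : DivBy n (c • x) := by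
  obtain ⟨a, rfl⟩ := hx
  exact ⟨c • a, smul_comm c n a⟩

theorem DivBy.of_dvd {m n : ℕ} (h : m ∣ n) {x : Λ} (hx : DivBy n x) : DivBy m x := by
  obtain ⟨c, rfl⟩ := h
  obtain ⟨a, rfl⟩ := hx
  exact ⟨c • a, mul_smul m c a⟩

theorem DivBy.smul_mul {m : ℕ} {x : Λ} (hx : DivBy m x) (n : ℕ) : DivBy (n * m) (n • x) := by
  obtain ⟨a, rfl⟩ := hx
  exact ⟨a, (mul_smul n m a).symm⟩

theorem DivBy.sum {ι : Type*} (s : Finset ι) {n : ℕ} {x : ι → Λ} (h : ∀ i ∈ s, DivBy n (x i)) :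
    DivBy n (∑ i ∈ s, x i) := by
  classical
  induction s using Finset.induction_on with
  | empty => simpa using DivBy.zero n
  | insert a s ha ih =>
    rw [Finset.sum_insert ha]
    exact (h a (Finset.mem_insert_self a s)).add (ih fun i hi => h i (Finset.mem_insert_of_mem hi))

/-- `A ≡ B mod n`. -/
def Cong (n : ℕ) (A B : Module.End ℤ Λ) : Prop := ∀ x, DivBy n (A x - B x)

theorem Cong.refl (n : ℕ) (A : Module.End ℤ Λ) : Cong n A A := fun x => by
  rw [sub_self]; exact DivBy.zero n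

theorem Cong.symm {n : ℕ} {A B : Module.End ℤ Λ} (h : Cong n A B) : Cong n B A := fun x => by
  rw [← neg_sub]; exact (h x).neg

theorem Cong.trans {n : ℕ} {A B C : Module.End ℤ Λ} (h : Cong n A B) (h' : Cong n B C) :
    Cong n A C := fun x => by
  rw [← sub_add_sub_cancel (A x) (B x) (C x)]; exact (h x).add (h' x)

theorem Cong.add {n : ℕ} {A B C D : Module.End ℤ Λ} (h : Cong n A B) (h' : Cong n C D) :
    Cong n (A + C) (B + D) := fun x => by
  rw [LinearMap.add_apply, LinearMap.add_apply, add_sub_add_comm]; exact (h x).add (h' x)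

theorem Cong.sub {n : ℕ} {A B C D : Module.End ℤ Λ} (h : Cong n A B) (h' : Cong n C D) :
    Cong n (A - C) (B - D) := fun x => by
  rw [LinearMap.sub_apply, LinearMap.sub_apply, sub_sub_sub_comm]; exact (h x).sub (h' x)

theorem Cong.mul {n : ℕ} {A B C D : Module.End ℤ Λ} (h : Cong n A B) (h' : Cong n C D) :
    Cong n (A * C) (B * D) := fun x => by
  rw [Module.End.mul_apply, Module.End.mul_apply,
    ← sub_add_sub_cancel (A (C x)) (A (D x)) (B (D x)), ← map_sub]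
  exact ((h' x).mapL A).add (h (D x))

theorem Cong.pow {n : ℕ} {A B : Module.End ℤ Λ} (h : Cong n A B) (j : ℕ) :
    Cong n (A ^ j) (B ^ j) := by
  induction j with
  | zero => rw [pow_zero, pow_zero]; exact Cong.refl n 1
  | succ j ih => rw [pow_succ, pow_succ]; exact ih.mul h

theorem Cong.of_dvd {m n : ℕ} (hmn : m ∣ n) {A B : Module.End ℤ Λ} (h : Cong n A B) :
    Cong m A B := fun x => (h x).of_dvd hmn

theorem cong_zero_iff {n : ℕ} {A : Module.End ℤ Λ} : Cong n A 0 ↔ ∀ x, DivBy n (A x) := by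
  refine forall_congr' fun x => ?_
  rw [LinearMap.zero_apply, sub_zero]

theorem cong_natCast_smul (n : ℕ) (A : Module.End ℤ Λ) : Cong n (n • A) 0 := fun x => by
  rw [LinearMap.zero_apply, sub_zero, LinearMap.smul_apply]; exact divBy_smul n _

/-- `A ≡ B mod p^i`, `i ≥ 1`, `A B = B A` `⟹` `A^p ≡ B^p mod p^(i+1)`. -/
theorem Cong.pow_prime {p i : ℕ} (hi : 1 ≤ i) {A B : Module.End ℤ Λ} (hc : Commute A B)
    (h : Cong (p ^ i) A B) : Cong (p ^ (i + 1)) (A ^ p) (B ^ p) := by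
  have h1 : Cong p A B := h.of_dvd (dvd_pow_self p (by omega))
  have h2 : Cong p (∑ r ∈ Finset.range p, A ^ r * B ^ (p - 1 - r)) 0 := by
    have h3 : Cong p (∑ r ∈ Finset.range p, A ^ r * B ^ (p - 1 - r))
        (∑ r ∈ Finset.range p, B ^ r * B ^ (p - 1 - r)) := by
      intro x
      rw [LinearMap.sum_apply, LinearMap.sum_apply, ← Finset.sum_sub_distrib]
      exact DivBy.sum _ fun r _ => ((h1.pow r).mul (Cong.refl p _)) x
    refine h3.trans ?_
    have h4 : ∑ r ∈ Finset.range p, B ^ r * B ^ (p - 1 - r) = p • B ^ (p - 1) := by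
      rw [Finset.sum_congr rfl (g := fun _ => B ^ (p - 1))]
      · simp
      · intro r hr
        rw [← pow_add]
        congr 1
        have := Finset.mem_range.1 hr
        omega
    rw [h4]
    exact cong_natCast_smul p _
  intro x
  have h5 := hc.mul_geom_sum₂ p
  have h6 : (A ^ p) x - (B ^ p) x =
      (A - B) ((∑ r ∈ Finset.range p, A ^ r * B ^ (p - 1 - r)) x) := by
    rw [← Module.End.mul_apply, h5, LinearMap.sub_apply]
  rw [h6]
  obtain ⟨w, hw⟩ := (cong_zero_iff.1 h2) x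
  rw [hw, map_nsmul, LinearMap.sub_apply, pow_succ, mul_comm]
  exact (h w).smul_mul p

/-- `A ≡ B mod p`, `A B = B A` `⟹` `A^(p^k) ≡ B^(p^k) mod p^(k+1)`. -/
theorem Cong.pow_prime_pow {p : ℕ} {A B : Module.End ℤ Λ} (hc : Commute A B) (h : Cong p A B)
    (k : ℕ) : Cong (p ^ (k + 1)) (A ^ p ^ k) (B ^ p ^ k) := by
  induction k with
  | zero => simpa using h
  | succ k ih =>
    rw [pow_succ p k, pow_mul, pow_mul]
    exact Cong.pow_prime (by omega) (hc.pow_pow _ _) ih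

end Fermat.Agent.ORD.P6
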