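import Fermat.Agent.ORD.P6.Defs

/-!
# ORD / P6 : the abstract FAITH theorem (pure algebra)

`Λ = Lat (M₁ p)`, `Λ' = Lat M₁`, `a = α^*`, `b = β^*`, `U = U_p`, `Tp = T_p` at level `M₁`,
`𝒮 = TT ∖ 𝔪`.   If `t` kills the `(s U)`-ordinary part of `Λ / p^k` then `t s'` kills `Λ / p^k` for some
`s' ∈ 𝒮`.
-/

set_option autoImplicit false

namespace Fermat.Agent.ORD.P6

variable {TT : Type*} [CommRing TT] {Λ Λ' : Type*} [AddCommGroup Λ] [AddCommGroup Λ']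

/-- `(P_j, Q_j)` : `U^j (a x) = a (P_j x) - b (Q_j x)`. -/
def faPQ (p : ℕ) (Tp : Module.End ℤ Λ') : ℕ → Module.End ℤ Λ' × Module.End ℤ Λ'
  | 0 => (1, 0)
  | j + 1 => (Tp * (faPQ p Tp j).1 - p • (faPQ p Tp j).2, (faPQ p Tp j).1)

theorem faPQ_commute (p : ℕ) (Tp X : Module.End ℤ Λ') (hX : Commute X Tp) (j : ℕ) :
    Commute X (faPQ p Tp j).1 ∧ Commute X (faPQ p Tp j).2 := by
  induction j with
  | zero => exact ⟨Commute.one_right X, Commute.zero_right X⟩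
  | succ j ih =>
    refine ⟨?_, ih.1⟩
    exact (hX.mul_right ih.1).sub_right (ih.2.smul_right p)

theorem faPQ_cong (p : ℕ) (Tp : Module.End ℤ Λ') (j : ℕ) : Cong p (faPQ p Tp j).1 (Tp ^ j) := by
  induction j with
  | zero => exact Cong.refl p 1
  | succ j ih =>
    have h1 : Cong p (Tp * (faPQ p Tp j).1 - p • (faPQ p Tp j).2) (Tp * Tp ^ j - 0) :=
      ((Cong.refl p Tp).mul ih).sub (cong_natCast_smul p _)
    rw [sub_zero, ← pow_succ'] at h1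
    exact h1

theorem fa_U_pow (p : ℕ) (a b : Λ' →ₗ[ℤ] Λ) (U : Module.End ℤ Λ) (Tp : Module.End ℤ Λ')
    (hUa : ∀ x, U (a x) = a (Tp x) - b x) (hUb : ∀ x, U (b x) = p • a x) (j : ℕ) (x : Λ') :
    (U ^ j) (a x) = a ((faPQ p Tp j).1 x) - b ((faPQ p Tp j).2 x) := by
  induction j with
  | zero => simp [faPQ]
  | succ j ih =>
    rw [pow_succ', Module.End.mul_apply, ih, map_sub, hUa, hUb]
    simp only [faPQ, LinearMap.sub_apply, Module.End.mul_apply, LinearMap.smul_apply, map_sub,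
      map_nsmul]
    abel

theorem fa_new (a b : Λ' →ₗ[ℤ] Λ) (U : Module.End ℤ Λ)
    (hnew : ∀ x : Λ, ∃ y z : Λ', U (U x) - x = a y + b z) (i : ℕ) :
    ∀ x : Λ, ∃ y z : Λ', (U ^ (2 * i)) x - x = a y + b z := by
  induction i with
  | zero => exact fun x => ⟨0, 0, by simp⟩
  | succ i ih =>
    intro x
    obtain ⟨y₁, z₁, h₁⟩ := ih (U (U x))
    obtain ⟨y₂, z₂, h₂⟩ := hnew x
    refine ⟨y₁ + y₂, z₁ + z₂, ?_⟩
    have e : (U ^ (2 * (i + 1))) x = (U ^ (2 * i)) (U (U x)) := by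
      rw [mul_add, mul_one, pow_add, pow_two, Module.End.mul_apply, Module.End.mul_apply]
    rw [e, map_add, map_add, add_add_add_comm, ← h₁, ← h₂]
    abel

theorem faith_abs (p : ℕ) (hp : 0 < p)
    (ι : TT →+* Module.End ℤ Λ) (ι' : TT →+* Module.End ℤ Λ')
    (a b : Λ' →ₗ[ℤ] Λ) (ha : ∀ t x, a (ι' t x) = ι t (a x)) (hb : ∀ t x, b (ι' t x) = ι t (b x))
    (U : Module.End ℤ Λ) (hU : ∀ t, Commute (ι t) U)
    (Tp : Module.End ℤ Λ') (hTp : ∀ t, Commute (ι' t) Tp)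
    (hUa : ∀ x, U (a x) = a (Tp x) - b x) (hUb : ∀ x, U (b x) = p • a x)
    (hnew : ∀ x : Λ, ∃ y z : Λ', U (U x) - x = a y + b z)
    (𝒮 : Submonoid TT)
    -- weak Ihara + non-Eisenstein
    (η : TT) (hη : η ∈ 𝒮)
    (hIh : ∀ (n : ℕ) (y z : Λ'), DivBy n (a y + b z) → DivBy n (ι' η y))
    -- `T_p` is invertible on the `𝔪`-part modulo `p`
    (sp : TT) (hsp : sp ∈ 𝒮) (V : Module.End ℤ Λ') (hVT : Commute V Tp)
    (hV : ∀ t, Commute (ι' t) V) (hTV : Cong p (Tp * V) (ι' sp))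
    (t s : TT) (hs : s ∈ 𝒮) (k j : ℕ) (h : ∀ x, DivBy (p ^ k) (ι t (((ι s * U) ^ j) x))) :
    ∃ s' ∈ 𝒮, ∀ x, DivBy (p ^ k) (ι (t * s') x) := by
  rcases Nat.eq_zero_or_pos k with rfl | hk
  · exact ⟨1, 𝒮.one_mem, fun x => by rw [pow_zero]; exact divBy_one _⟩
  obtain ⟨k', rfl⟩ : ∃ k', k = k' + 1 := ⟨k - 1, by omega⟩
  have hpow : ∀ i : ℕ, (ι s * U) ^ i = ι (s ^ i) * U ^ i := fun i => by
    rw [(hU s).mul_pow, map_pow]
  set P := (faPQ p Tp j).1 with hP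
  set Q := (faPQ p Tp j).2 with hQ
  -- step 1 : `(*)`
  have h1 : ∀ x', DivBy (p ^ (k' + 1)) (ι' (η * (t * s ^ j)) (P x')) := by
    intro x'
    have h2 := h (a x')
    rw [hpow, Module.End.mul_apply, fa_U_pow p a b U Tp hUa hUb, ← Module.End.mul_apply, ← map_mul,
      map_sub, ← ha, ← hb, sub_eq_add_neg, ← map_neg] at h2
    have h3 := hIh _ _ _ h2
    rwa [← Module.End.mul_apply, ← map_mul] at h3
  set A := P * V ^ j with hA
  set B := ι' (sp ^ j) with hB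
  have hAB : Cong p A B := by
    have e1 : Cong p A (Tp ^ j * V ^ j) := (faPQ_cong p Tp j).mul (Cong.refl p _)
    have e2 : Tp ^ j * V ^ j = (Tp * V) ^ j := (hVT.symm.mul_pow j).symm
    rw [e2] at e1
    refine e1.trans ?_
    rw [hB, map_pow]
    exact hTV.pow j
  have hcAB : Commute A B :=
    (((faPQ_commute p Tp _ (hTp (sp ^ j)) j).1).mul_right ((hV (sp ^ j)).pow_right j)).symm
  have hABk := Cong.pow_prime_pow hcAB hAB k'
  set n := p ^ k' with hn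
  have hAn : ∀ x', DivBy (p ^ (k' + 1)) (ι' (η * (t * s ^ j)) ((A ^ n) x')) := by
    intro x'
    have hpos : 0 < n := pow_pos hp k'
    obtain ⟨n', hn'⟩ : ∃ n', n = n' + 1 := ⟨n - 1, by omega⟩
    have e : A ^ n = P * (V ^ j * A ^ n') := by rw [hn', pow_succ', hA, mul_assoc]
    rw [e, Module.End.mul_apply]
    exact h1 _
  have hBn : ∀ x', DivBy (p ^ (k' + 1)) (ι' (t * (η * s ^ j * sp ^ (j * n))) x') := by
    intro x'
    have e1 := ((hABk x').mapL (ι' (η * (t * s ^ j))))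
    rw [map_sub] at e1
    have e2 := (hAn x').sub e1
    rw [sub_sub_cancel, hB, ← map_pow, ← Module.End.mul_apply, ← map_mul, ← pow_mul] at e2
    have e3 : η * (t * s ^ j) * sp ^ (j * n) = t * (η * s ^ j * sp ^ (j * n)) := by ring
    rwa [e3] at e2
  set s₁ := η * s ^ j * sp ^ (j * n) with hs₁
  have hs₁m : s₁ ∈ 𝒮 := 𝒮.mul_mem (𝒮.mul_mem hη (𝒮.pow_mem hs j)) (𝒮.pow_mem hsp _)
  refine ⟨s ^ (2 * j) * s₁, 𝒮.mul_mem (𝒮.pow_mem hs _) hs₁m, fun x => ?_⟩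
  obtain ⟨y, z, hyz⟩ := fa_new a b U hnew j x
  have e1 : DivBy (p ^ (k' + 1)) (ι t (((ι s * U) ^ (2 * j)) x)) := by
    have e : (ι s * U) ^ (2 * j) = (ι s * U) ^ j * (ι s * U) ^ j := by rw [two_mul, pow_add]
    rw [e, Module.End.mul_apply]
    exact h _
  rw [hpow, Module.End.mul_apply] at e1
  have e2 : DivBy (p ^ (k' + 1)) (ι (t * s₁) (a y + b z)) := by
    rw [map_add, ← ha, ← hb]
    exact ((hBn y).mapL a).add ((hBn z).mapL b)
  have e3 : ι (t * (s ^ (2 * j) * s₁)) x =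
      ι s₁ (ι t (ι (s ^ (2 * j)) ((U ^ (2 * j)) x))) - ι (s ^ (2 * j)) (ι (t * s₁) (a y + b z)) := by
    have c0 : ∀ w : Λ, ι s₁ (ι t (ι (s ^ (2 * j)) w)) = ι (s ^ (2 * j)) (ι (t * s₁) w) := by
      intro w
      rw [← Module.End.mul_apply, ← Module.End.mul_apply, ← Module.End.mul_apply, ← map_mul,
        ← map_mul, ← map_mul]
      congr 2
      ring
    have c1 := c0 ((U ^ (2 * j)) x)
    have c2 : ι (t * (s ^ (2 * j) * s₁)) x = ι (s ^ (2 * j)) (ι (t * s₁) x) := by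
      rw [← Module.End.mul_apply, ← map_mul]
      congr 2
      ring
    rw [c1, c2, ← hyz, map_sub, map_sub, sub_sub_cancel]
  rw [e3]
  exact (e1.mapL _).sub (e2.mapL _)

end Fermat.Agent.ORD.P6
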