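import Fermat.Agent.ORD.P6.Defs

/-!
# ORD / P6 : the `𝔪`-part of `Λ / p` and invertibility of `T_p` on it (pure algebra)
-/

set_option autoImplicit false

namespace Fermat.Agent.ORD.P6

variable {TT : Type*} [CommRing TT] {Λ : Type*} [AddCommGroup Λ] [Module.Finite ℤ Λ]

/-- `p Λ` as a submodule. -/
def OrdSplit_W (Λ : Type*) [AddCommGroup Λ] (p : ℕ) : Submodule ℤ Λ where
  carrier := {x | DivBy p x}
  add_mem' := DivBy.add
  zero_mem' := DivBy.zero p
  smul_mem' c _ hx := DivBy.zsmul hx c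

omit [Module.Finite ℤ Λ] in
theorem OrdSplit_mem_W {p : ℕ} {x : Λ} : x ∈ OrdSplit_W Λ p ↔ DivBy p x := Iff.rfl

theorem OrdSplit_finite_quot (p : ℕ) (hp : p ≠ 0) : Finite (Λ ⧸ OrdSplit_W Λ p) := by
  apply Module.finite_of_fg_torsion
  intro x
  refine ⟨⟨(p : ℤ), mem_nonZeroDivisors_of_ne_zero (by exact_mod_cast hp)⟩, ?_⟩
  obtain ⟨y, rfl⟩ := Submodule.Quotient.mk_surjective _ x
  show (p : ℤ) • (Submodule.Quotient.mk y : Λ ⧸ OrdSplit_W Λ p) = 0
  rw [← Submodule.Quotient.mk_smul, Submodule.Quotient.mk_eq_zero, OrdSplit_mem_W, natCast_zsmul]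
  exact divBy_smul p y

/-- there are only finitely many endomorphisms modulo `p`. -/
theorem OrdSplit_exists_finite.{u} (Λ : Type u) [AddCommGroup Λ] [Module.Finite ℤ Λ] (p : ℕ)
    (hp : p ≠ 0) :
    ∃ (X : Type u) (_ : Finite X) (f : Module.End ℤ Λ → X), ∀ A B, f A = f B → Cong p A B := by
  obtain ⟨S, hS⟩ := (Module.Finite.fg_top : (⊤ : Submodule ℤ Λ).FG)
  have := OrdSplit_finite_quot (Λ := Λ) p hp
  refine ⟨{x // x ∈ S} → Λ ⧸ OrdSplit_W Λ p, inferInstance,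
    fun A x => Submodule.Quotient.mk (A x.1), fun A B h => ?_⟩
  have h1 : ∀ x ∈ (S : Set Λ), (A - B) x ∈ OrdSplit_W Λ p := by
    intro x hx
    have h2 := congrFun h ⟨x, hx⟩
    rw [LinearMap.sub_apply]
    exact (Submodule.Quotient.eq _).1 h2
  have h3 : (⊤ : Submodule ℤ Λ) ≤ (OrdSplit_W Λ p).comap (A - B) := by
    rw [← hS, Submodule.span_le]
    exact h1
  intro x
  have := h3 (Submodule.mem_top : x ∈ ⊤)
  rwa [Submodule.mem_comap, LinearMap.sub_apply] at this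

omit [Module.Finite ℤ Λ] in
/-- the ideal of the elements acting by `0` on `Λ / p`. -/
def OrdSplit_I (p : ℕ) (ι : TT →+* Module.End ℤ Λ) : Ideal TT where
  carrier := {t | Cong p (ι t) 0}
  add_mem' {a b} ha hb := by
    have := Cong.add ha hb
    rwa [← map_add, add_zero] at this
  zero_mem' := by
    show Cong p (ι 0) 0
    rw [map_zero]; exact Cong.refl p 0
  smul_mem' c t ht := by
    show Cong p (ι (c * t)) 0
    have := Cong.mul (Cong.refl p (ι c)) ht
    rwa [← map_mul, mul_zero] at this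

omit [Module.Finite ℤ Λ] in
theorem OrdSplit_mem_I {p : ℕ} {ι : TT →+* Module.End ℤ Λ} {t : TT} :
    t ∈ OrdSplit_I p ι ↔ Cong p (ι t) 0 := Iff.rfl

omit [Module.Finite ℤ Λ] in
theorem OrdSplit_cong_of_sub_mem {p : ℕ} {ι : TT →+* Module.End ℤ Λ} {a b : TT}
    (h : a - b ∈ OrdSplit_I p ι) : Cong p (ι a) (ι b) := by
  intro x
  have := h x
  rwa [map_sub, LinearMap.sub_apply, LinearMap.zero_apply, sub_zero] at this

theorem OrdSplit_finite_ring (p : ℕ) (hp : p ≠ 0) (ι : TT →+* Module.End ℤ Λ) :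
    Finite (TT ⧸ OrdSplit_I p ι) := by
  obtain ⟨X, hX, f, hf⟩ := OrdSplit_exists_finite Λ p hp
  refine Finite.of_injective (fun a : TT ⧸ OrdSplit_I p ι => f (ι (Quotient.out a))) ?_
  intro a b hab
  have h1 := hf _ _ hab
  have h2 : Quotient.out a - Quotient.out b ∈ OrdSplit_I p ι := by
    intro x
    have := h1 x
    rwa [map_sub, LinearMap.sub_apply, LinearMap.zero_apply, sub_zero]
  have h3 := (Ideal.Quotient.eq (I := OrdSplit_I p ι)).2 h2
  have ha : Ideal.Quotient.mk (OrdSplit_I p ι) (Quotient.out a) = a := Quotient.out_eq a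
  have hb : Ideal.Quotient.mk (OrdSplit_I p ι) (Quotient.out b) = b := Quotient.out_eq b
  rw [ha, hb] at h3
  exact h3

/-- in a finite commutative ring, for every ideal `M` there are an idempotent `e ∈ M` and `N` with
`M ^ N = (e)`. -/
theorem OrdSplit_exists_idem {R : Type*} [CommRing R] [Finite R] (M : Ideal R) :
    ∃ (e : R) (N : ℕ), e ∈ M ∧ e * e = e ∧ M ^ N = Ideal.span {e} := by
  obtain ⟨n, hn⟩ := IsArtinian.monotone_stabilizes (R := R) (M := R)
    ⟨fun n => OrderDual.toDual (M ^ n), fun a b h => Ideal.pow_le_pow_right h⟩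
  have hn' : ∀ m, n ≤ m → M ^ n = M ^ m := fun m hm => hn m hm
  have hE : IsIdempotentElem (M ^ (n + 1)) := by
    show M ^ (n + 1) * M ^ (n + 1) = M ^ (n + 1)
    rw [← pow_add, ← hn' (n + 1) (by omega), ← hn' (n + 1 + (n + 1)) (by omega)]
  obtain ⟨e, he, hEe⟩ := (Ideal.isIdempotentElem_iff_of_fg _ (IsNoetherian.noetherian _)).1 hE
  refine ⟨e, n + 1, ?_, he, hEe⟩
  have h1 : e ∈ M ^ (n + 1) := by rw [hEe]; exact Ideal.mem_span_singleton_self e
  exact Ideal.pow_le_self (Nat.succ_ne_zero n) h1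

/-- an element `s ∈ 1 + 𝔪` acting on `Λ / p` as the projector onto the `𝔪`-primary part. -/
theorem exists_proj (p : ℕ) (hp : p.Prime) (ι : TT →+* Module.End ℤ Λ) (𝔪 : Ideal TT)
    (h𝔪 : 𝔪.FG) :
    ∃ (s : TT) (n : ℕ), s - 1 ∈ 𝔪 ∧ Cong p (ι (s * s)) (ι s) ∧
      ∀ t ∈ 𝔪 ^ n, Cong p (ι (t * s)) 0 := by
  have hfin := OrdSplit_finite_ring p hp.ne_zero ι
  set I := OrdSplit_I p ι with hI
  obtain ⟨e, N, heM, hee, hN⟩ := OrdSplit_exists_idem (𝔪.map (Ideal.Quotient.mk I))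
  obtain ⟨e₀, he₀, rfl⟩ := (Ideal.mem_map_iff_of_surjective _ Ideal.Quotient.mk_surjective).1 heM
  refine ⟨1 - e₀, N, ?_, ?_, fun t ht => ?_⟩
  · have : (1 - e₀) - 1 = -e₀ := by ring
    rw [this]
    exact 𝔪.neg_mem he₀
  · apply OrdSplit_cong_of_sub_mem
    rw [← hI, ← Ideal.Quotient.eq_zero_iff_mem]
    simp only [map_sub, map_mul, map_one]
    linear_combination hee
  · rw [← OrdSplit_mem_I, ← hI, ← Ideal.Quotient.eq_zero_iff_mem]
    have h1 : Ideal.Quotient.mk I t ∈ Ideal.span {Ideal.Quotient.mk I e₀} := by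
      rw [← hN, ← Ideal.map_pow]
      exact Ideal.mem_map_of_mem _ ht
    obtain ⟨a, ha⟩ := Ideal.mem_span_singleton'.1 h1
    simp only [map_sub, map_mul, map_one]
    rw [← ha]
    linear_combination (-a) * hee

omit [Module.Finite ℤ Λ] in
/-- `T_p` is injective on the `𝔪`-primary part. -/
theorem OrdSplit_inj (p : ℕ) (ι : TT →+* Module.End ℤ Λ) (𝔪 : Ideal TT)
    (Tp : Module.End ℤ Λ) (hTp : ∀ t, Commute (ι t) Tp)
    (hord : ∀ x, (∀ t ∈ 𝔪, DivBy p (ι t x)) → DivBy p (Tp x) → DivBy p x)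
    (s : TT) (n₀ : ℕ) (hs : ∀ t ∈ 𝔪 ^ n₀, Cong p (ι (t * s)) 0) (x : Λ)
    (hx : DivBy p (ι s x - x)) (hTx : DivBy p (Tp x)) : DivBy p x := by
  have key : ∀ j i, i + j = n₀ → ∀ t ∈ 𝔪 ^ i, DivBy p (ι t x) := by
    intro j
    induction j with
    | zero =>
      intro i hi t ht
      rw [add_zero] at hi
      subst hi
      have h1 := cong_zero_iff.1 (hs t ht) x
      rw [map_mul, Module.End.mul_apply] at h1
      have h2 := hx.mapL (ι t)
      rw [map_sub] at h2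
      have h3 := h1.sub h2
      rwa [sub_sub_cancel] at h3
    | succ j ih =>
      intro i hi t ht
      refine hord _ (fun u hu => ?_) ?_
      · rw [← Module.End.mul_apply, ← map_mul]
        refine ih (i + 1) (by omega) _ ?_
        rw [pow_succ']
        exact Ideal.mul_mem_mul hu ht
      · rw [← Module.End.mul_apply, ← (hTp t).eq, Module.End.mul_apply]
        exact hTx.mapL (ι t)
  have := key n₀ 0 (zero_add _) 1 (by rw [pow_zero, Ideal.one_eq_top]; trivial)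
  rwa [map_one, Module.End.one_apply] at this

/-- if `T_p` is injective on `(Λ / p)[𝔪]` then it is invertible on the `𝔪`-primary part of `Λ / p`. -/
theorem ord_split (p : ℕ) (hp : p.Prime) (ι : TT →+* Module.End ℤ Λ) (𝔪 : Ideal TT)
    (h𝔪 : 𝔪.FG) (Tp : Module.End ℤ Λ) (hTp : ∀ t, Commute (ι t) Tp)
    (hord : ∀ x, (∀ t ∈ 𝔪, DivBy p (ι t x)) → DivBy p (Tp x) → DivBy p x) :
    ∃ (s : TT) (n : ℕ), s - 1 ∈ 𝔪 ∧ Cong p (Tp * (Tp ^ n * ι s)) (ι s) := by
  obtain ⟨s, n₀, hs1, hss, hs⟩ := exists_proj p hp ι 𝔪 h𝔪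
  have hinj := OrdSplit_inj p ι 𝔪 Tp hTp hord s n₀ hs
  -- iterate the injectivity
  have hinj' : ∀ (a : ℕ) (y : Λ), DivBy p (ι s y - y) → DivBy p ((Tp ^ a) y) → DivBy p y := by
    intro a
    induction a with
    | zero =>
      intro y _ h
      rwa [pow_zero, Module.End.one_apply] at h
    | succ a ih =>
      intro y hy h
      refine ih y hy (hinj _ ?_ ?_)
      · have h1 := hy.mapL (Tp ^ a)
        rw [map_sub, ← Module.End.mul_apply, ← ((hTp s).pow_right a).eq,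
          Module.End.mul_apply] at h1
        exact h1
      · rwa [← Module.End.mul_apply, ← pow_succ']
  -- pigeonhole
  obtain ⟨X, hX, f, hf⟩ := OrdSplit_exists_finite Λ p hp.ne_zero
  obtain ⟨a, b, hab, hfab⟩ : ∃ a b : ℕ, a < b ∧ f (Tp ^ a) = f (Tp ^ b) := by
    obtain ⟨a, b, hne, h⟩ := Finite.exists_ne_map_eq_of_infinite (fun k : ℕ => f (Tp ^ k))
    rcases lt_or_gt_of_ne hne with h1 | h1
    · exact ⟨a, b, h1, h⟩
    · exact ⟨b, a, h1, h.symm⟩
  have hc := hf _ _ hfab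
  obtain ⟨c, rfl⟩ : ∃ c, b = a + (c + 1) := ⟨b - a - 1, by omega⟩
  refine ⟨s, c, hs1, fun x => ?_⟩
  rw [← mul_assoc, ← pow_succ', Module.End.mul_apply]
  refine hinj' a _ ?_ ?_
  · -- the element lies in the `𝔪`-part
    have h1 := hss x
    rw [map_mul, Module.End.mul_apply] at h1
    have h2 := h1.mapL (Tp ^ (c + 1))
    rw [map_sub] at h2
    have h3 : ι s ((Tp ^ (c + 1)) (ι s x)) = (Tp ^ (c + 1)) (ι s (ι s x)) := by
      rw [← Module.End.mul_apply, ((hTp s).pow_right (c + 1)).eq, Module.End.mul_apply]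
    rw [map_sub, h3]
    have h4 := h2.sub h1
    have h5 : (Tp ^ (c + 1)) (ι s (ι s x)) - ι s (ι s x) - ((Tp ^ (c + 1)) (ι s x) - ι s x) =
        (Tp ^ (c + 1)) (ι s (ι s x)) - (Tp ^ (c + 1)) (ι s x) - (ι s (ι s x) - ι s x) := by abel
    rw [h5]
    exact h4
  · have h1 := (hc (ι s x)).neg
    rw [neg_sub, pow_add, Module.End.mul_apply, ← map_sub] at h1
    exact h1

end Fermat.Agent.ORD.P6
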