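import Fermat.Agent.ORD.P6.FaithAbs
import Fermat.Agent.ORD.P6.OrdSplit
import Fermat.Agent.GR.Adic.Saturation

/-!
# ORD / P6 : the abstract FAITH theorem, second form (pure algebra)

`faith_abs` + `ord_split` + saturation : "`t` kills the ordinary part of `Λ / p^k`  ⇒  `Π t ∈ p^n T`".
-/

set_option autoImplicit false

namespace Fermat.Agent.ORD.P6

variable {TT : Type*} [CommRing TT] {Λ Λ' : Type*} [AddCommGroup Λ] [AddCommGroup Λ']

theorem faith_abs2 [Module.Free ℤ Λ] [Module.Finite ℤ Λ] [Module.Finite ℤ Λ']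
    {T : Type*} [CommRing T] [IsLocalRing T]
    (p : ℕ) (hp : p.Prime)
    (ι : TT →+* Module.End ℤ Λ) (hιinj : Function.Injective ι) (ι' : TT →+* Module.End ℤ Λ')
    (Pi : TT →+* T)
    (a b : Λ' →ₗ[ℤ] Λ) (ha : ∀ t x, a (ι' t x) = ι t (a x)) (hb : ∀ t x, b (ι' t x) = ι t (b x))
    (U : Module.End ℤ Λ) (hU : ∀ t, Commute (ι t) U)
    (Tp : Module.End ℤ Λ') (hTp : ∀ t, Commute (ι' t) Tp)
    (hUa : ∀ x, U (a x) = a (Tp x) - b x) (hUb : ∀ x, U (b x) = p • a x)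
    (hnew : ∀ x : Λ, ∃ y z : Λ', U (U x) - x = a y + b z)
    (η : TT) (hη : IsUnit (Pi η))
    (hIh : ∀ (n : ℕ) (y z : Λ'), DivBy n (a y + b z) → DivBy n (ι' η y))
    (hord : ∀ x, (∀ t ∈ (IsLocalRing.maximalIdeal T).comap Pi, DivBy p (ι' t x)) →
      DivBy p (Tp x) → DivBy p x) (n : ℕ) :
    ∃ k : ℕ, ∀ (t s : TT) (j : ℕ), IsUnit (Pi s) →
      (∀ x, DivBy (p ^ k) (ι t (((ι s * U) ^ j) x))) → Pi t ∈ Ideal.span {(p : T) ^ n} := by
  classical
  -- `TT` is noetherian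
  have hfinTT : Module.Finite ℤ TT :=
    Module.Finite.of_injective ι.toAddMonoidHom.toIntLinearMap hιinj
  have hnoeth : IsNoetherianRing TT := IsNoetherianRing.of_finite ℤ TT
  have hFG : ((IsLocalRing.maximalIdeal T).comap Pi).FG := IsNoetherian.noetherian _
  obtain ⟨sp, n₀, hsp1, hsp⟩ := ord_split p hp ι' _ hFG Tp hTp hord
  have hspu : IsUnit (Pi sp) := by
    by_contra hcon
    have h1 : Pi sp ∈ IsLocalRing.maximalIdeal T := (IsLocalRing.mem_maximalIdeal _).2 hcon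
    have h2 : Pi (sp - 1) ∈ IsLocalRing.maximalIdeal T := hsp1
    rw [map_sub, map_one] at h2
    have h3 := Ideal.sub_mem _ h1 h2
    rw [sub_sub_cancel] at h3
    exact (Ideal.ne_top_iff_one _).1 (IsLocalRing.maximalIdeal.isMaximal T).ne_top h3
  obtain ⟨c, hc⟩ := Fermat.Agent.GR.Adic.exists_saturation
    (LinearMap.range ι.toAddMonoidHom.toIntLinearMap) p
  refine ⟨n + c, fun t s j hs h => ?_⟩
  obtain ⟨s', hs', h'⟩ := faith_abs p hp.pos ι ι' a b ha hb U hU Tp hTp hUa hUb hnew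
    ((IsUnit.submonoid T).comap Pi) η hη hIh sp hspu (Tp ^ n₀ * ι' sp)
    (((Commute.refl Tp).pow_left n₀).mul_left (hTp sp))
    (fun t => ((hTp t).pow_right n₀).mul_right (by
      rw [Commute, SemiconjBy, ← map_mul, ← map_mul, mul_comm])) hsp t s hs (n + c) j h
  obtain ⟨D', ⟨δ, rfl⟩, hD'⟩ := hc n (ι (t * s')) ⟨t * s', rfl⟩ (fun x => by
    obtain ⟨w, hw⟩ := h' x
    refine ⟨w, ?_⟩
    rw [hw, ← natCast_zsmul]
    push_cast
    rfl)
  have h1 : t * s' = ((p : ℤ) ^ n : ℤ) * δ := by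
    apply hιinj
    rw [hD', map_mul, map_intCast]
    ext x
    simp
  have h2 : Pi t * Pi s' = (p : T) ^ n * Pi δ := by
    rw [← map_mul, h1, map_mul, map_intCast]
    push_cast
    rfl
  obtain ⟨u, hu⟩ : IsUnit (Pi s') := hs'
  rw [Ideal.mem_span_singleton]
  refine ⟨Pi δ * ↑u⁻¹, ?_⟩
  rw [← mul_assoc, ← h2, ← hu, mul_assoc, Units.mul_inv, mul_one]

end Fermat.Agent.ORD.P6
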