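import Fermat.Agent.ORD.P0.Defs
import Fermat.Agent.ORD.P6.OrdSplit

/-!
# ORD / P6 : `P0.Faith X ψ` from the lattice statement (FS) and Kummer data `κ_k : Λ / p^k ↪ W`

`Ξ = κ_k ((ι s · U)^j Λ)`, `s` = projector onto the `𝔪`-part modulo `p`, `j` in the stable range.
-/

set_option autoImplicit false

namespace Fermat.Agent.ORD.P6

open Fermat.Agent.ORD.P0 IsLocalRing

/-- `B ≡ 0 mod p ⟹ B^k ≡ 0 mod p^k`. -/
theorem glue_pow_divBy {Λ : Type*} [AddCommGroup Λ] {p : ℕ} {B : Module.End ℤ Λ}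
    (h : Cong p B 0) (k : ℕ) : ∀ x, DivBy (p ^ k) ((B ^ k) x) := by
  induction k with
  | zero => intro x; rw [pow_zero]; exact divBy_one _
  | succ k ih =>
    intro x
    obtain ⟨w, hw⟩ := cong_zero_iff.1 h x
    rw [pow_succ B, Module.End.mul_apply, hw, map_nsmul, pow_succ, mul_comm]
    exact (ih w).smul_mul p

variable {bad : Finset ℕ} {HH : Type} [CommRing HH]

theorem faith_of_kappa (X : HSys bad HH) {T : Type} [CommRing T] [IsLocalRing T] (ψ : HH →+* T)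
    {p : ℕ} (hp : p.Prime) (hpT : (p : T) ∈ maximalIdeal T)
    {TT : Type*} [CommRing TT] {Λ : Type*} [AddCommGroup Λ] [Module.Finite ℤ Λ]
    (ι : TT →+* Module.End ℤ Λ) (UΛ : Module.End ℤ Λ) (hU : ∀ t, Commute (ι t) UΛ)
    (φ : HH →+* TT) (Pi : TT →+* T) (hψ : ∀ D, ψ D = Pi (φ D))
    (hFG : ((maximalIdeal T).comap Pi).FG)
    (κ : ℕ → Λ →+ X.W) (hκ : ∀ k x, κ k x = 0 ↔ DivBy (p ^ k) x)
    (hκop : ∀ k D x, X.op D (κ k x) = κ k (ι (φ D) x))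
    (hκU : ∀ k x, X.U (κ k x) = κ k (UΛ x))
    (hFS : ∀ n : ℕ, ∃ k : ℕ, ∀ (t s : TT) (j : ℕ), IsUnit (Pi s) →
      (∀ x, DivBy (p ^ k) (ι t (((ι s * UΛ) ^ j) x))) → Pi t ∈ Ideal.span {(p : T) ^ n}) :
    Faith X ψ := by
  classical
  intro n
  obtain ⟨k, hk⟩ := hFS n
  obtain ⟨s, n₀, hs1, -, hs⟩ := exists_proj p hp ι _ hFG
  have hsu : IsUnit (Pi s) := by
    by_contra hcon
    have h1 : Pi s ∈ maximalIdeal T := (mem_maximalIdeal _).2 hcon
    have h2 : Pi (s - 1) ∈ maximalIdeal T := hs1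
    rw [map_sub, map_one] at h2
    have h3 := Ideal.sub_mem _ h1 h2
    rw [sub_sub_cancel] at h3
    exact (Ideal.ne_top_iff_one _).1 (maximalIdeal.isMaximal T).ne_top h3
  have hpk : p ^ k ≠ 0 := pow_ne_zero _ hp.ne_zero
  set A : Module.End ℤ Λ := ι s * UΛ with hA
  have hAι : ∀ t, Commute (ι t) A := fun t =>
    Commute.mul_right (by rw [Commute, SemiconjBy, ← map_mul, ← map_mul, mul_comm]) (hU t)
  have hAU : Commute UΛ A := Commute.mul_right (hU s).symm (Commute.refl _)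
  -- pigeonhole
  obtain ⟨Y, hY, f, hf⟩ := OrdSplit_exists_finite Λ (p ^ k) hpk
  obtain ⟨a, b, hab, hfab⟩ : ∃ a b : ℕ, a < b ∧ f (A ^ a) = f (A ^ b) := by
    obtain ⟨a, b, hne, h⟩ := Finite.exists_ne_map_eq_of_infinite (fun i : ℕ => f (A ^ i))
    rcases lt_or_gt_of_ne hne with h1 | h1
    · exact ⟨a, b, h1, h⟩
    · exact ⟨b, a, h1, h.symm⟩
  have hc := hf _ _ hfab
  obtain ⟨c, rfl⟩ : ∃ c, b = a + (c + 1) := ⟨b - a - 1, by omega⟩
  set j := a + k with hj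
  have hcj : Cong (p ^ k) (A ^ j) (A ^ c * A ^ (j + 1)) := by
    have h1 := hc.mul (Cong.refl (p ^ k) (A ^ k))
    rw [← pow_add, ← pow_add] at h1
    have e : a + (c + 1) + k = c + (j + 1) := by omega
    rw [e, pow_add A c] at h1
    exact h1
  refine ⟨AddSubgroup.map (κ k) (LinearMap.range (A ^ j)).toAddSubgroup, ⟨?_, ?_, ?_, ?_, ?_⟩, ?_⟩
  · -- finite
    have := OrdSplit_finite_quot (Λ := Λ) (p ^ k) hpk
    refine (Set.finite_range
      (fun q : Λ ⧸ OrdSplit_W Λ (p ^ k) => κ k (Quotient.out q))).subset ?_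
    rintro _ ⟨x, -, rfl⟩
    refine ⟨Submodule.Quotient.mk x, ?_⟩
    have h1 : (Submodule.Quotient.mk (Quotient.out (Submodule.Quotient.mk x :
        Λ ⧸ OrdSplit_W Λ (p ^ k))) : Λ ⧸ OrdSplit_W Λ (p ^ k)) = Submodule.Quotient.mk x :=
      Quotient.out_eq _
    have h2 := (Submodule.Quotient.eq _).1 h1
    rw [OrdSplit_mem_W, ← hκ, map_sub, sub_eq_zero] at h2
    exact h2
  · -- Hecke stable
    rintro D _ ⟨_, ⟨y, rfl⟩, rfl⟩
    refine ⟨(A ^ j) (ι (φ D) y), ⟨_, rfl⟩, ?_⟩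
    rw [hκop, ← Module.End.mul_apply, ← Module.End.mul_apply, ((hAι (φ D)).pow_right j).eq]
  · -- `U` stable
    rintro _ ⟨_, ⟨y, rfl⟩, rfl⟩
    refine ⟨(A ^ j) (UΛ y), ⟨_, rfl⟩, ?_⟩
    rw [hκU, ← Module.End.mul_apply, ← Module.End.mul_apply, (hAU.pow_right j).eq]
  · -- `U` injective
    rintro _ ⟨_, ⟨y, rfl⟩, rfl⟩ h0
    rw [hκU, hκ] at h0
    rw [hκ]
    have h1 : DivBy (p ^ k) ((A ^ c * A ^ (j + 1)) y) := by
      rw [Module.End.mul_apply, pow_succ', Module.End.mul_apply, hA, Module.End.mul_apply]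
      exact (h0.mapL (ι s)).mapL _
    have h2 := (hcj y).add h1
    rwa [sub_add_cancel] at h2
  · -- nilpotent
    rintro D hD _ ⟨_, ⟨y, rfl⟩, rfl⟩
    refine ⟨n₀ * k, ?_⟩
    rw [hκop, hκ]
    have hD' : φ D ∈ (maximalIdeal T).comap Pi := by
      rw [Ideal.mem_comap, ← hψ]; exact (mem_mOf ψ D).1 hD
    have h1 := glue_pow_divBy (hs _ (Ideal.pow_mem_pow hD' n₀)) k
    have e : ι (φ (D ^ (n₀ * k))) * A ^ j = (ι (φ D ^ n₀ * s)) ^ k * (ι (s ^ a) * UΛ ^ j) := by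
      rw [hA, (hU s).mul_pow, ← map_pow, ← map_pow, ← mul_assoc, ← mul_assoc, ← map_mul, ← map_mul,
        map_pow, mul_pow, ← pow_mul, mul_assoc, ← pow_add, hj, add_comm k a]
    rw [← Module.End.mul_apply, e, Module.End.mul_apply]
    exact h1 _
  · -- faithful
    intro D hD
    have h1 : Pi (φ D) ∈ Ideal.span {(p : T) ^ n} := by
      refine hk (φ D) s j hsu fun x => ?_
      rw [← hκ, ← hκop]
      exact hD _ ⟨_, ⟨x, rfl⟩, rfl⟩
    rw [hψ]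
    refine (Ideal.span_le.2 ?_) h1
    rintro _ rfl
    exact Ideal.pow_mem_pow hpT n

end Fermat.Agent.ORD.P6
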