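import Fermat.Agent.ORD.P0.Quad
import Fermat.Agent.ORD.P0.Res
import Fermat.Agent.ORD.P0.Sat
import Fermat.Agent.ORD.P6.Defs

/-!
# ORD / P6 : (ORD-lat) from (WF), abstractly over `P0.HSys`

`X` = Hecke--Galois module at level `M₁` (`p ∤ M₁`; take `X.U = 1`), `Tp = T_p`.
(WF) : a `p`-torsion class killed by `T_p` and fixed by `H₁ = {τ ∈ I_P fixing μ_p}` is zero.
Conclusion : `T_p` is injective on `W[p][𝔪]`.
-/

set_option autoImplicit false

namespace Fermat.Agent.ORD.P6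

open Fermat.Agent.ORD.P0 IsLocalRing
open Fermat.Agent.GR.Adic (GQ FixesLevel)
open Fermat.Agent.GR.Asm (WeakChebotarev)

local notation "Qbar'" => AlgebraicClosure ℚ

variable {bad : Finset ℕ} {HH : Type} [CommRing HH]

/-- the cyclic Hecke module generated by an element of the socle is a `Good0` piece. -/
theorem ordLat_good0 (X : HSys bad HH) (hXU : X.U = 1) {T : Type} [CommRing T] [IsLocalRing T]
    [Finite (ResidueField T)] (ψ : HH →+* T) (z : X.W) (hmz : ∀ D ∈ mOf ψ, X.op D z = 0) :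
    ∃ Ξ₀ : AddSubgroup X.W, Good0 X (mOf ψ) Ξ₀ ∧ z ∈ Ξ₀ := by
  classical
  let g : HH →+ X.W :=
    { toFun := fun D => X.op D z
      map_zero' := by rw [map_zero, LinearMap.zero_apply]
      map_add' := fun D D' => by rw [map_add, LinearMap.add_apply] }
  have hg : ∀ D, g D = X.op D z := fun _ => rfl
  refine ⟨g.range, ⟨?_, ?_, ?_, ?_, ?_⟩, ⟨1, by rw [hg, map_one, Module.End.one_apply]⟩⟩
  · refine (Set.finite_range (fun c : ResidueField T =>
      if h : ∃ D, residue T (ψ D) = c then g h.choose else 0)).subset ?_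
    rintro _ ⟨D, rfl⟩
    refine ⟨residue T (ψ D), ?_⟩
    have h : ∃ D', residue T (ψ D') = residue T (ψ D) := ⟨D, rfl⟩
    simp only [dif_pos h]
    have h1 := h.choose_spec
    have h2 : h.choose - D ∈ mOf ψ := by
      rw [mem_mOf, map_sub, ← residue_eq_zero_iff, map_sub, h1, sub_self]
    have h3 := hmz _ h2
    rw [map_sub, LinearMap.sub_apply, sub_eq_zero] at h3
    exact h3
  · rintro D _ ⟨D', rfl⟩
    exact ⟨D * D', by rw [hg, hg, map_mul, Module.End.mul_apply]⟩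
  · rintro x hx
    rw [hXU, Module.End.one_apply]; exact hx
  · rintro x - h
    rwa [hXU, Module.End.one_apply] at h
  · rintro D hD _ ⟨D', rfl⟩
    refine ⟨1, ?_⟩
    rw [pow_one, hg, ← Module.End.mul_apply, ← map_mul, mul_comm, map_mul, Module.End.mul_apply,
      hmz D hD, map_zero]

theorem ordLat_abs (hcheb : WeakChebotarev) {p : ℕ} (hp : p.Prime) (hpbad : p ∈ bad)
    (X : HSys bad HH) (hXU : X.U = 1) {T : Type} [CommRing T] [IsLocalRing T]
    [Finite (ResidueField T)]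
    (hpT : (p : T) ∈ maximalIdeal T) (ψ : HH →+* T) (ρ : GaloisRepAdic T) (hatt : Attached X ψ ρ)
    (hres : (GaloisRepAdic.ofResidualGaloisRep ρ.residual).IsOrdinaryAt p)
    (P : ValuationSubring Qbar') (hP : P.LiesOverPrime p)
    (Tp : Module.End ℤ X.W) (hTact : ∀ σ, Commute Tp (X.act σ))
    (hWF : ∀ z : X.W, p • z = 0 → Tp z = 0 →
      (∀ τ ∈ P.inertiaSubgroupIn ℚ, (∀ ζ : Qbar', ζ ^ p = 1 → τ ζ = ζ) → X.act τ z = z) → z = 0)
    (z : X.W) (hpz : p • z = 0) (hmz : ∀ D ∈ mOf ψ, X.op D z = 0) (hTz : Tp z = 0) : z = 0 := by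
  classical
  by_contra hz0
  obtain ⟨Ξ₀, hΞ₀, hzΞ₀⟩ := ordLat_good0 X hXU ψ z hmz
  obtain ⟨Ξ, hΞ, hle⟩ := exists_good X (mOf ψ) Ξ₀ hΞ₀
  -- the subgroup `K`
  let K : AddSubgroup X.W :=
    { carrier := {y | y ∈ Ξ ∧ p • y = 0 ∧ (∀ D ∈ mOf ψ, X.op D y = 0) ∧ Tp y = 0}
      zero_mem' := ⟨Ξ.zero_mem, smul_zero _, fun D _ => map_zero _, map_zero _⟩
      add_mem' := by
        rintro x y ⟨h1, h2, h3, h4⟩ ⟨h1', h2', h3', h4'⟩
        exact ⟨Ξ.add_mem h1 h1', by rw [smul_add, h2, h2', add_zero],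
          fun D hD => by rw [map_add, h3 D hD, h3' D hD, add_zero], by rw [map_add, h4, h4', add_zero]⟩
      neg_mem' := by
        rintro x ⟨h1, h2, h3, h4⟩
        exact ⟨Ξ.neg_mem h1, by rw [smul_neg, h2, neg_zero],
          fun D hD => by rw [map_neg, h3 D hD, neg_zero], by rw [map_neg, h4, neg_zero]⟩ }
  have hKmem : ∀ y, y ∈ K ↔ y ∈ Ξ ∧ p • y = 0 ∧ (∀ D ∈ mOf ψ, X.op D y = 0) ∧ Tp y = 0 :=
    fun _ => Iff.rfl
  have hzK : z ∈ K := ⟨hle hzΞ₀, hpz, hmz, hTz⟩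
  have hKfin : Finite K := (hΞ.fin.subset fun y hy => hy.1).to_subtype
  have hKact : ∀ (σ : GQ) (y : X.W), y ∈ K → X.act σ y ∈ K := by
    rintro σ y ⟨h1, h2, h3, h4⟩
    refine ⟨hΞ.act_mem σ y h1, by rw [← map_nsmul, h2, map_zero], fun D hD => ?_, ?_⟩
    · rw [← Module.End.mul_apply, (X.op_act D σ).eq, Module.End.mul_apply, h3 D hD, map_zero]
    · rw [← Module.End.mul_apply, (hTact σ).eq, Module.End.mul_apply, h4, map_zero]
  -- the group `H₁`
  let H1 : Subgroup GQ :=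
    { carrier := {τ | τ ∈ P.inertiaSubgroupIn ℚ ∧ ∀ ζ : Qbar', ζ ^ p = 1 → τ ζ = ζ}
      one_mem' := ⟨Subgroup.one_mem _, fun _ _ => rfl⟩
      mul_mem' := by
        rintro σ τ ⟨h1, h2⟩ ⟨h1', h2'⟩
        exact ⟨Subgroup.mul_mem _ h1 h1', fun ζ hζ => by
          rw [AlgEquiv.mul_apply, h2' ζ hζ, h2 ζ hζ]⟩
      inv_mem' := by
        rintro σ ⟨h1, h2⟩
        refine ⟨Subgroup.inv_mem _ h1, fun ζ hζ => ?_⟩
        have := congrArg (σ⁻¹ : GQ) (h2 ζ hζ)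
        rw [← AlgEquiv.mul_apply, inv_mul_cancel, AlgEquiv.one_apply] at this
        exact this.symm }
  -- unipotence
  have hquad : ∀ τ ∈ H1, ∀ y ∈ K, X.act τ (X.act τ y) - X.act τ y = X.act τ y - y := by
    rintro τ ⟨hτ, hτζ⟩ y ⟨h1, -, h3, -⟩
    have hζ1 : ∀ ζ : Qbar', ζ ^ p = 1 → τ ζ = ζ ^ 1 := fun ζ hζ => by rw [pow_one, hτζ ζ hζ]
    have hdet := det_sub_mem hcheb hp hpbad X hpT ψ ρ hatt τ 1 hζ1
    have htr : LinearMap.trace T ρ.V (ρ.ρ τ) - (1 + (1 : ℕ)) ∈ maximalIdeal T := by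
      have h1 := trace_sub_one_add_det_mem ρ hres P hP τ hτ
      have h2 := Ideal.add_mem _ h1 hdet
      convert h2 using 1
      ring
    have h := quad_on_socle hcheb hp hpbad X hpT ψ ρ hatt Ξ hΞ τ 1 hζ1 htr y h1 h3
    rw [one_smul, add_smul, one_smul] at h
    rw [sub_eq_sub_iff_add_eq_add, ← sub_eq_zero, ← h]
    abel
  have hpow : ∀ τ ∈ H1, ∀ y ∈ K, ∀ i : ℕ,
      X.act (τ ^ i) y = y + i • (X.act τ y - y) := by
    intro τ hτ y hy i
    induction i with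
    | zero => rw [pow_zero, map_one, Module.End.one_apply, zero_smul, add_zero]
    | succ i ih =>
      rw [pow_succ', map_mul, Module.End.mul_apply, ih, map_add, map_nsmul, map_sub,
        hquad τ hτ y hy, succ_nsmul]
      abel
  have hpp : ∀ τ ∈ H1, ∀ y ∈ K, X.act (τ ^ p) y = y := by
    intro τ hτ y hy
    rw [hpow τ hτ y hy p, smul_sub, (hKact τ y hy).2.1, hy.2.1, sub_zero, add_zero]
  -- the action
  let _ : MulAction H1 K :=
    { smul := fun τ y => ⟨X.act τ.1 y.1, hKact τ.1 y.1 y.2⟩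
      one_smul := fun y => Subtype.ext (by
        show X.act ((1 : H1) : GQ) y.1 = y.1
        rw [Subgroup.coe_one, map_one, Module.End.one_apply])
      mul_smul := fun σ τ y => Subtype.ext (by
        show X.act ((σ * τ : H1) : GQ) y.1 = X.act σ.1 (X.act τ.1 y.1)
        rw [Subgroup.coe_mul, map_mul, Module.End.mul_apply]) }
  have hsmul : ∀ (τ : H1) (y : K), ((τ • y : K) : X.W) = X.act τ.1 y.1 := fun _ _ => rfl
  have hG : IsPGroup p (MulAction.toPermHom H1 K).range := by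
    rintro ⟨_, τ, rfl⟩
    refine ⟨1, Subtype.ext ?_⟩
    rw [pow_one, Subgroup.coe_pow, Subgroup.coe_one, ← map_pow]
    ext y
    rw [MulAction.toPermHom_apply, MulAction.toPerm_apply, hsmul, Equiv.Perm.one_apply,
      Subgroup.coe_pow]
    exact hpp τ.1 τ.2 y.1 y.2
  have : Fact p.Prime := ⟨hp⟩
  have hcard : p ∣ Nat.card K := by
    have h1 : addOrderOf (⟨z, hzK⟩ : K) = p := by
      apply addOrderOf_eq_prime
      · exact Subtype.ext hpz
      · exact fun h => hz0 (congrArg Subtype.val h)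
    rw [← h1]
    exact addOrderOf_dvd_natCard _
  have h0 : (0 : K) ∈ MulAction.fixedPoints (MulAction.toPermHom H1 K).range K := by
    rintro ⟨_, τ, rfl⟩
    apply Subtype.ext
    show X.act τ.1 ((0 : K) : X.W) = ((0 : K) : X.W)
    rw [AddSubgroup.coe_zero, map_zero]
  obtain ⟨b, hb, hne⟩ := hG.exists_fixed_point_of_prime_dvd_card_of_fixed_point K hcard h0
  apply hne
  apply Subtype.ext
  rw [AddSubgroup.coe_zero]
  refine (hWF b.1 b.2.2.1 b.2.2.2.2 fun τ hτ hτζ => ?_).symm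
  have := hb ⟨_, ⟨τ, hτ, hτζ⟩, rfl⟩
  exact congrArg Subtype.val this

/-- **(ORD-lat) from (WF)** and Kummer data `κ : Λ' / p ↪ W` at level `M₁`
(the conclusion is `OrdLat p M₁ hp hpM₁ ι' ((maximalIdeal T).comap Pi)` for `Λ' = Lat M₁`, `TpΛ = latT M₁ hp hpM₁`). -/
theorem ordLat_of_kappa (hcheb : WeakChebotarev) {p : ℕ} (hp : p.Prime) (hpbad : p ∈ bad)
    (X : HSys bad HH) (hXU : X.U = 1) {T : Type} [CommRing T] [IsLocalRing T]
    [Finite (ResidueField T)]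
    (hpT : (p : T) ∈ maximalIdeal T) (ψ : HH →+* T) (ρ : GaloisRepAdic T) (hatt : Attached X ψ ρ)
    (hres : (GaloisRepAdic.ofResidualGaloisRep ρ.residual).IsOrdinaryAt p)
    (P : ValuationSubring Qbar') (hP : P.LiesOverPrime p)
    (Tp : Module.End ℤ X.W) (hTact : ∀ σ, Commute Tp (X.act σ))
    (hWF : ∀ z : X.W, p • z = 0 → Tp z = 0 →
      (∀ τ ∈ P.inertiaSubgroupIn ℚ, (∀ ζ : Qbar', ζ ^ p = 1 → τ ζ = ζ) → X.act τ z = z) → z = 0)
    {TT : Type*} [CommRing TT] {Λ' : Type*} [AddCommGroup Λ']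
    (ι' : TT →+* Module.End ℤ Λ') (TpΛ : Module.End ℤ Λ')
    (φ : HH →+* TT) (Pi : TT →+* T) (hψ : ∀ D, ψ D = Pi (φ D))
    (κ : Λ' →+ X.W) (hκ : ∀ x, κ x = 0 ↔ DivBy p x)
    (hκop : ∀ D x, X.op D (κ x) = κ (ι' (φ D) x)) (hκT : ∀ x, Tp (κ x) = κ (TpΛ x))
    (x : Λ') (hx : ∀ t ∈ (maximalIdeal T).comap Pi, DivBy p (ι' t x)) (hTx : DivBy p (TpΛ x)) :
    DivBy p x := by
  rw [← hκ]
  refine ordLat_abs hcheb hp hpbad X hXU hpT ψ ρ hatt hres P hP Tp hTact hWF (κ x) ?_ ?_ ?_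
  · rw [← map_nsmul, hκ]; exact divBy_smul p x
  · intro D hD
    rw [hκop, hκ]
    refine hx _ ?_
    rw [Ideal.mem_comap, ← hψ]
    exact (mem_mOf ψ D).1 hD
  · rw [hκT, hκ]; exact hTx

end Fermat.Agent.ORD.P6
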